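import Fermat.Agent.GalCoh.HasseH2
import Fermat.Agent.GalCoh.AuxPrime
import Fermat.Agent.GalCoh.LocalEuler
import Fermat.Agent.KroneckerWeber.Tame

/-!
# Homomorphisms of `G_ℚ` and of the decomposition groups into finite groups

Preliminaries for the theorem of Scholz and Reichardt: local homomorphisms are determined by
inertia and Frobenius, ramification is finite, and central extensions with kernel of prime order.
-/

set_option autoImplicit false
set_option linter.unusedSectionVars false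

noncomputable section

namespace Fermat.Agent.ScholzReichardt

open FA.GalCoh
open scoped Pointwise

variable {X : Type*} [Group X]

/-- A homomorphism is locally constant as soon as its kernel is a level. -/
theorem lc_of_ker {G : Type} [Group G] {L : Levels G} (f : G →* X) (h : f.ker ∈ L.carrier) :
    LC₁ L f :=
  ⟨f.ker, h, fun g s hs => by rw [map_mul, MonoidHom.mem_ker.1 hs, mul_one]⟩

theorem lc_of_isOpen (f : GQ →* X) (h : IsOpen (f.ker : Set GQ)) : LC₁ LQ f :=
  lc_of_ker f (mem_LQ_iff_isOpen.2 h)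

theorem isOpen_of_lc (f : GQ →* X) (h : LC₁ LQ f) : IsOpen (f.ker : Set GQ) := by
  obtain ⟨N, hN, hs⟩ := h
  refine Subgroup.isOpen_mono (fun s hs' => MonoidHom.mem_ker.2 ?_) (mem_LQ_iff_isOpen.1 hN)
  simpa using hs 1 s hs'

theorem loc_lc (f : GQ →* X) (h : IsOpen (f.ker : Set GQ)) (q : ℕ) [Fact q.Prime] :
    LC₁ (LL q) (f.comp (loc q)) :=
  (lc_of_isOpen f h).precomp compat_loc

/-- Local homomorphisms agreeing on inertia and at Frobenius are equal. -/
theorem locHom_ext {q : ℕ} [Fact q.Prime] {f f' : LG q →* X} (hf : LC₁ (LL q) f)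
    (hf' : LC₁ (LL q) f') (hI : ∀ ι ∈ inertL q, f ι = f' ι) (hF : f (frobL q) = f' (frobL q)) :
    f = f' := by
  obtain ⟨M, hM, h⟩ := hf
  obtain ⟨M', hM', h'⟩ := hf'
  refine MonoidHom.ext fun g => ?_
  obtain ⟨i, ι, hι, m, hm, rfl⟩ := exists_frobL_decomp ((LL q).inf_mem hM hM') g
  rw [h _ m hm.1, h' _ m hm.2, map_mul, map_mul, map_pow, map_pow, hI ι hι, hF]

/-- If the image of Frobenius lies in the image of inertia, so does the whole image. -/
theorem exists_inertia_eq {q : ℕ} [Fact q.Prime] {f : LG q →* X} (hf : LC₁ (LL q) f)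
    (hF : f (frobL q) ∈ (inertL q).map f) (τ : LG q) : ∃ ι ∈ inertL q, f τ = f ι := by
  obtain ⟨M, hM, h⟩ := hf
  obtain ⟨i, ι, hι, m, hm, rfl⟩ := exists_frobL_decomp hM τ
  obtain ⟨η, hη, he⟩ := mul_mem (pow_mem hF i) (Subgroup.mem_map_of_mem f hι)
  exact ⟨η, hη, by rw [h _ m hm, map_mul, map_pow, he]⟩

/-- Inertia elements of the decomposition group. -/
theorem exists_loc_inert {q : ℕ} [Fact q.Prime] {σ : GQ}
    (hσ : σ ∈ (padicPlace q).inertiaSubgroupIn ℚ) : ∃ ι ∈ inertL q, loc q ι = σ := by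
  obtain ⟨ι, rfl⟩ : σ ∈ (loc q).range := by
    rw [range_loc]; exact inertiaSubgroupIn_le_decomposition _ hσ
  exact ⟨ι, hσ, rfl⟩

/-- `f` is unramified at `q`. -/
def UnrAt (f : GQ →* X) (q : ℕ) [Fact q.Prime] : Prop := ∀ ι ∈ inertL q, f (loc q ι) = 1

/-- The ramification is finite. -/
theorem exists_finset_unrAt (f : GQ →* X) (h : IsOpen (f.ker : Set GQ)) :
    ∃ S : Finset Nat.Primes, ∀ q : Nat.Primes, q ∉ S → UnrAt f (q : ℕ) := by
  obtain ⟨K, hK, hKg, hKf⟩ :
      ∃ K : IntermediateField ℚ (AlgebraicClosure ℚ), FiniteDimensional ℚ K ∧ IsGalois ℚ K ∧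
        K.fixingSubgroup = f.ker := by
    have hc : (IntermediateField.fixedField f.ker).fixingSubgroup = f.ker :=
      fixingSubgroup_fixedField_LQ (mem_LQ_iff_isOpen.2 h)
    exact ⟨IntermediateField.fixedField f.ker,
      (InfiniteGalois.isOpen_iff_finite _).mp (by rw [hc]; exact h),
      (InfiniteGalois.normal_iff_isGalois _).mp (hc.symm ▸ f.normal_ker), hc⟩
  obtain ⟨S, hS⟩ := FA.KroneckerWeber.exists_unramified_set K
  refine ⟨S.subtype Nat.Prime, fun q hq ι hι => ?_⟩
  have hqS : (q : ℕ) ∉ S := fun hm => hq (Finset.mem_subtype.2 hm)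
  exact MonoidHom.mem_ker.1 (hKf ▸ hS q q.2 hqS _ (liesOverPrime_padicPlace _) hι)

/-- `f` is a surjection with open kernel, every ramified prime of which is congruent to `1`
modulo `p ^ N` and has its decomposition image equal to its inertia image. -/
structure IsScholz (p N : ℕ) (f : GQ →* X) : Prop where
  isOpen : IsOpen (f.ker : Set GQ)
  surj : Function.Surjective f
  ram : ∀ q : Nat.Primes, UnrAt f (q : ℕ) ∨
    (p ^ N ∣ (q : ℕ) - 1 ∧ ∀ τ, ∃ ι ∈ inertL (q : ℕ), f (loc (q : ℕ) τ) = f (loc (q : ℕ) ι))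

/-! ### Powers with exponents modulo `n` -/

theorem pow_val_add {n : ℕ} [NeZero n] {e : X} (he : e ^ n = 1) (a b : ZMod n) :
    e ^ (a + b).val = e ^ a.val * e ^ b.val := by
  rw [ZMod.val_add, ← pow_add, ← pow_eq_pow_mod _ he]

/-- The homomorphism `g ↦ e ^ w g`. -/
def powChar {n : ℕ} [NeZero n] {G : Type*} [Group G] (e : X) (he : e ^ n = 1) (w : G → ZMod n)
    (hw : ∀ a b, w (a * b) = w a + w b) : G →* X :=
  MonoidHom.mk' (fun g => e ^ (w g).val) fun a b => by rw [hw, pow_val_add he]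

theorem powChar_apply {n : ℕ} [NeZero n] {G : Type*} [Group G] (e : X) (he : e ^ n = 1)
    (w : G → ZMod n) (hw : ∀ a b, w (a * b) = w a + w b) (g : G) :
    powChar e he w hw g = e ^ (w g).val := rfl

theorem powChar_lc {n : ℕ} [NeZero n] {G : Type} [Group G] {L : Levels G} (e : X) (he : e ^ n = 1)
    {w : G → ZMod n} (hw : ∀ a b, w (a * b) = w a + w b) (hlc : LC₁ L w) :
    LC₁ L (powChar e he w hw) :=
  hlc.comp fun a => e ^ a.val

theorem add_map_one {G : Type*} [Group G] {A : Type*} [AddGroup A] {w : G → A}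
    (hw : ∀ a b, w (a * b) = w a + w b) : w 1 = 0 := by
  have := hw 1 1
  rwa [one_mul, left_eq_add] at this

/-! ### Central extensions by a group of order `p` -/

/-- A central extension with kernel of order `p`. -/
structure CExt (p : ℕ) (E : Type*) [Group E] (G : Type*) [Group G] where
  /-- The projection. -/
  π : E →* G
  surj : Function.Surjective π
  /-- The inclusion of the kernel. -/
  j : Multiplicative (ZMod p) →* E
  inj : Function.Injective j
  range_eq : j.range = π.ker
  central : ∀ a e, j a * e = e * j a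

variable {p : ℕ} {E : Type*} [Group E] {G : Type*} [Group G]

theorem CExt.π_j (D : CExt p E G) (a : Multiplicative (ZMod p)) : D.π (D.j a) = 1 :=
  MonoidHom.mem_ker.1 (D.range_eq ▸ ⟨a, rfl⟩)

theorem CExt.exists_j (D : CExt p E G) {e : E} (h : D.π e = 1) : ∃ a, D.j a = e :=
  MonoidHom.mem_range.1 (D.range_eq.symm ▸ MonoidHom.mem_ker.2 h)

/-- The inclusion written additively. -/
def CExt.ja (D : CExt p E G) (a : ZMod p) : E := D.j (Multiplicative.ofAdd a)

theorem CExt.ja_add (D : CExt p E G) (a b : ZMod p) : D.ja (a + b) = D.ja a * D.ja b := by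
  rw [CExt.ja, ofAdd_add, map_mul]; rfl

theorem CExt.ja_zero (D : CExt p E G) : D.ja 0 = 1 := by rw [CExt.ja, ofAdd_zero, map_one]

theorem CExt.ja_comm (D : CExt p E G) (a : ZMod p) (e : E) : D.ja a * e = e * D.ja a :=
  D.central _ _

theorem CExt.π_ja (D : CExt p E G) (a : ZMod p) : D.π (D.ja a) = 1 := D.π_j _

theorem CExt.ja_injective (D : CExt p E G) : Function.Injective D.ja := fun _ _ h =>
  Multiplicative.ofAdd.injective (D.inj h)

theorem CExt.exists_ja (D : CExt p E G) {e : E} (h : D.π e = 1) : ∃ a, D.ja a = e := by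
  obtain ⟨a, rfl⟩ := D.exists_j h
  exact ⟨Multiplicative.toAdd a, rfl⟩

/-- A homomorphism twisted by a character with values in the kernel. -/
def CExt.twist (D : CExt p E G) {H : Type*} [Group H] (ψ : H →* E) (χ : H → ZMod p)
    (hχ : ∀ a b, χ (a * b) = χ a + χ b) : H →* E :=
  MonoidHom.mk' (fun g => ψ g * D.ja (χ g)) fun a b => by
    rw [map_mul, hχ, D.ja_add]
    calc ψ a * ψ b * (D.ja (χ a) * D.ja (χ b)) = ψ a * (ψ b * D.ja (χ a)) * D.ja (χ b) := by group
      _ = ψ a * (D.ja (χ a) * ψ b) * D.ja (χ b) := by rw [D.ja_comm]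
      _ = ψ a * D.ja (χ a) * (ψ b * D.ja (χ b)) := by group

theorem CExt.twist_apply (D : CExt p E G) {H : Type*} [Group H] (ψ : H →* E) (χ : H → ZMod p)
    (hχ : ∀ a b, χ (a * b) = χ a + χ b) (g : H) : D.twist ψ χ hχ g = ψ g * D.ja (χ g) := rfl

theorem CExt.π_twist (D : CExt p E G) {H : Type*} [Group H] (ψ : H →* E) (χ : H → ZMod p)
    (hχ : ∀ a b, χ (a * b) = χ a + χ b) (g : H) : D.π (D.twist ψ χ hχ g) = D.π (ψ g) := by
  rw [D.twist_apply, map_mul, D.π_ja, mul_one]

theorem CExt.twist_lc (D : CExt p E G) {H : Type} [Group H] {L : Levels H} {ψ : H →* E}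
    (hψ : LC₁ L ψ) {χ : H → ZMod p} (hχ : ∀ a b, χ (a * b) = χ a + χ b) (hlc : LC₁ L χ) :
    LC₁ L (D.twist ψ χ hχ) :=
  hψ.map₂ hlc fun a b => a * D.ja b

/-- A non-trivial `p`-group is a central extension of a quotient by a group of order `p`. -/
theorem exists_cExt_quotient [Fact p.Prime] [Finite E] [Nontrivial E] (hPG : IsPGroup p E) :
    ∃ (H : Subgroup E) (_ : H.Normal) (D : CExt p E (E ⧸ H)),
      Nat.card H = p ∧ D.π = QuotientGroup.mk' H := by
  have hp := (Fact.out : p.Prime)
  have hdvd : p ∣ Nat.card (Subgroup.center E) := by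
    have := hPG.center_nontrivial
    obtain ⟨k, hk⟩ := IsPGroup.iff_card.1 (hPG.to_subgroup (Subgroup.center E))
    have h1 := Finite.one_lt_card_iff_nontrivial.2 this
    rw [hk] at h1 ⊢
    exact dvd_pow_self p fun h => by rw [h, pow_zero] at h1; omega
  obtain ⟨⟨z, hzc⟩, hz⟩ := exists_prime_orderOf_dvd_card' p hdvd
  rw [Subgroup.orderOf_mk] at hz
  have hzp : z ^ p = 1 := hz ▸ pow_orderOf_eq_one z
  have hn : (Subgroup.zpowers z).Normal := ⟨fun x hx g => by
    have hxc : x ∈ Subgroup.center E :=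
      (Subgroup.zpowers_le.2 hzc : Subgroup.zpowers z ≤ _) hx
    rw [Subgroup.mem_center_iff.1 hxc g, mul_inv_cancel_right]
    exact hx⟩
  have : NeZero p := ⟨hp.ne_zero⟩
  let j : Multiplicative (ZMod p) →* E := powChar z hzp Multiplicative.toAdd fun _ _ => rfl
  refine ⟨Subgroup.zpowers z, hn,
    { π := QuotientGroup.mk' _
      surj := QuotientGroup.mk'_surjective _
      j := j
      inj := fun x y h => Multiplicative.toAdd.injective (ZMod.val_injective p
        (pow_injOn_Iio_orderOf (by rw [Set.mem_Iio, hz]; exact ZMod.val_lt _)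
          (by rw [Set.mem_Iio, hz]; exact ZMod.val_lt _) h))
      range_eq := by
        rw [QuotientGroup.ker_mk']
        refine le_antisymm (fun x hx => ?_) (Subgroup.zpowers_le.2 ⟨Multiplicative.ofAdd 1, ?_⟩)
        · obtain ⟨y, rfl⟩ := hx
          exact pow_mem (Subgroup.mem_zpowers z) _
        · have : Fact (1 < p) := ⟨hp.one_lt⟩
          show z ^ (1 : ZMod p).val = z
          rw [ZMod.val_one, pow_one]
      central := fun x e => (Subgroup.mem_center_iff.1 (pow_mem hzc _) e).symm },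
    by rw [Nat.card_zpowers, hz], rfl⟩

/-- A proper subgroup of a `p`-group is killed by a non-trivial character of order `p`. -/
theorem exists_char_of_ne_top [Fact p.Prime] [Finite E] (hPG : IsPGroup p E) {H : Subgroup E}
    (hH : H ≠ ⊤) :
    ∃ χ : E → ZMod p, (∀ a b, χ (a * b) = χ a + χ b) ∧ (∀ h ∈ H, χ h = 0) ∧ ∃ g, χ g ≠ 0 := by
  obtain ⟨M, hM, hle⟩ := (eq_top_or_exists_le_coatom H).resolve_left hH
  have := hPG.isNilpotent
  have : M.Normal := Subgroup.NormalizerCondition.normal_of_coatom M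
    Group.normalizerCondition_of_isNilpotent hM
  have : Nontrivial (E ⧸ M) := QuotientGroup.nontrivial_iff.2 hM.1
  obtain ⟨K, hK, -, hKc, -⟩ := exists_cExt_quotient (hPG.to_quotient M)
  have hle' : M ≤ K.comap (QuotientGroup.mk' M) := fun m hm => by
    rw [Subgroup.mem_comap, QuotientGroup.mk'_apply, (QuotientGroup.eq_one_iff m).2 hm]
    exact one_mem _
  have hKtop : K = ⊤ := by
    rcases eq_or_lt_of_le hle' with h | h
    · have h1 : K = ⊥ := eq_bot_iff.2 fun k hk => by
        obtain ⟨e, rfl⟩ := QuotientGroup.mk'_surjective M k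
        have he : e ∈ M := h.symm ▸ (show e ∈ K.comap (QuotientGroup.mk' M) from hk)
        rw [Subgroup.mem_bot, QuotientGroup.mk'_apply]
        exact (QuotientGroup.eq_one_iff e).2 he
      rw [h1, Subgroup.card_bot] at hKc
      exact absurd hKc.symm (Fact.out : p.Prime).one_lt.ne'
    · have h1 := hM.2 _ h
      rw [← Subgroup.map_comap_eq_self_of_surjective (QuotientGroup.mk'_surjective M) K, h1,
        Subgroup.map_top_of_surjective _ (QuotientGroup.mk'_surjective M)]
  rw [hKtop, Subgroup.card_top] at hKc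
  have hcyc : IsCyclic (E ⧸ M) := isCyclic_of_prime_card hKc
  subst hKc
  let e := (zmodCyclicMulEquiv hcyc).symm
  refine ⟨fun g => Multiplicative.toAdd (e (QuotientGroup.mk' M g)),
    fun a b => by simp only [map_mul, toAdd_mul], fun h hh => by
      show Multiplicative.toAdd (e (QuotientGroup.mk' M h)) = 0
      rw [QuotientGroup.mk'_apply, (QuotientGroup.eq_one_iff h).2 (hle hh), map_one, toAdd_one],
    ?_⟩
  obtain ⟨q, hq⟩ := exists_ne (1 : E ⧸ M)
  obtain ⟨g, rfl⟩ := QuotientGroup.mk'_surjective M q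
  exact ⟨g, fun h => hq (e.injective (by rw [map_one]; exact toAdd_eq_zero.1 h))⟩

end Fermat.Agent.ScholzReichardt
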