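import Fermat.Agent.ScholzReichardt.Lift

/-!
# The Hasse principle for central embedding problems with kernel of prime order

For odd `p` a central extension of the group of a Galois extension of `ℚ` with kernel of order `p`
has a surjective lift, of arbitrarily new ramification, as soon as it has lifts in the decomposition
groups at the finitely many ramified primes.
-/

set_option autoImplicit false
set_option linter.unusedSectionVars false

noncomputable section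

namespace Fermat.Agent.ScholzReichardt

open FA.GalCoh
open scoped Pointwise

variable {p : ℕ} [hp : Fact p.Prime] {E : Type*} [Group E] {G : Type*} [Group G]

/-- At an unramified prime there is always a local lift. -/
theorem exists_local_lift_of_unr [Finite E] (D : CExt p E G) {f : GQ →* G}
    (hfo : IsOpen (f.ker : Set GQ)) {q : ℕ} [Fact q.Prime] (hu : UnrAt f q) :
    ∃ β : LG q →* E, LC₁ (LL q) β ∧ ∀ τ, D.π (β τ) = f (loc q τ) := by
  obtain ⟨e, he⟩ := D.surj (f (loc q (frobL q)))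
  have : NeZero (orderOf e) := ⟨(isOfFinOrder_of_finite e).orderOf_pos.ne'⟩
  let β : LG q →* E := powChar e (pow_orderOf_eq_one e) (frobExp (orderOf e)) frobExp_mul
  refine ⟨β, powChar_lc _ _ _ (frobExp_lc _),
    fun τ => DFunLike.congr_fun (locHom_ext (f := D.π.comp β) (f' := f.comp (loc q))
      ((powChar_lc _ _ _ (frobExp_lc _)).comp D.π) (loc_lc f hfo q) (fun ι hι => ?_) ?_) τ⟩
  · show D.π (e ^ (frobExp _ ι).val) = f (loc q ι)
    rw [frobExp_inertL hι, ZMod.val_zero, pow_zero, map_one, hu ι hι]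
  · show D.π (e ^ (frobExp _ (frobL q)).val) = f (loc q (frobL q))
    rw [frobExp_frobL, ← he]
    rcases Nat.eq_or_lt_of_le (isOfFinOrder_of_finite e).orderOf_pos with h1 | h1
    · rw [(orderOf_eq_one_iff.1 h1.symm), one_pow]
    · have : Fact (1 < orderOf e) := ⟨h1⟩
      rw [ZMod.val_one, pow_one]

/-- A character of order `p` of conductor `l ≡ 1 (mod p)`. -/
theorem exists_cyclic_char {l : ℕ} [hl : Fact l.Prime] (hlp : p ∣ l - 1) :
    ∃ χ : GQ → ZMod p, (∀ a b, χ (a * b) = χ a + χ b) ∧ LC₁ LQ χ ∧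
      (∀ (r : ℕ) [Fact r.Prime], r ≠ l → ∀ ι ∈ inertL r, χ (loc r ι) = 0) ∧
      ∃ ι ∈ inertL l, χ (loc l ι) = 1 := by
  obtain ⟨t, ht, w, hw, hwlc, hwu, hwt, -⟩ := exists_tame_char (p := p) (X := PUnit)
    (ne_of_dvd_sub_one' (N := 1) one_pos hl.out (by rwa [pow_one])) (n := 1) (by rwa [pow_one])
    (fun x => ⟨0, Subsingleton.elim _ _⟩) 1 (by rw [MonoidHom.ker_one]; exact isOpen_univ)
  let c : ZMod (p ^ 1) →+* ZMod p := ZMod.castHom (dvd_pow_self p one_ne_zero) (ZMod p)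
  exact ⟨fun g => c (w g), fun a b => by simp only [hw, map_add], hwlc.comp c,
    fun r hr hrl ι hι => by simp only [hwu r hrl ι hι, map_zero], t, ht,
    by simp only [hwt, map_one]⟩

/-- **The Hasse principle, with proper solutions of new ramification.** -/
theorem exists_proper_lift [Finite E] (hp2 : p ≠ 2) (D : CExt p E G) {f : GQ →* G}
    (hfo : IsOpen (f.ker : Set GQ)) (hf : Function.Surjective f)
    (hlocal : ∀ q : Nat.Primes, ¬ UnrAt f (q : ℕ) → ∃ β : LG (q : ℕ) →* E,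
      LC₁ (LL (q : ℕ)) β ∧ ∀ τ, D.π (β τ) = f (loc (q : ℕ) τ))
    (T : Finset Nat.Primes) :
    ∃ ψ : GQ →* E, IsOpen (ψ.ker : Set GQ) ∧ Function.Surjective ψ ∧ (∀ g, D.π (ψ g) = f g) ∧
      ∃ l : Nat.Primes, l ∉ T ∧ ¬ UnrAt ψ (l : ℕ) := by
  classical
  obtain ⟨ψ, hψ, hlift⟩ := exists_lift_of_local hp2 D hfo fun q => by
    by_cases hu : UnrAt f (q : ℕ)
    · exact exists_local_lift_of_unr D hfo hu
    · exact hlocal q hu
  obtain ⟨S, hS⟩ := exists_finset_unrAt ψ hψ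
  obtain ⟨l, hlT, hlmod⟩ : ∃ l : Nat.Primes,
      (S ∪ T).sup (fun q : Nat.Primes => (q : ℕ)) < (l : ℕ) ∧ (l : ℕ) ≡ 1 [MOD p] := by
    obtain ⟨l₀, hl₀, h1, h2⟩ := Nat.exists_prime_gt_modEq_one (k := p)
      ((S ∪ T).sup fun q : Nat.Primes => (q : ℕ)) hp.out.ne_zero
    exact ⟨⟨l₀, hl₀⟩, h1, h2⟩
  have hnot : l ∉ S ∪ T := fun h =>
    absurd (Finset.le_sup (f := fun q : Nat.Primes => (q : ℕ)) h) (not_le.2 hlT)
  have hlp : p ∣ (l : ℕ) - 1 := (Nat.modEq_iff_dvd' l.2.one_le).1 hlmod.symm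
  obtain ⟨χ, hχ, hχlc, -, ι, hι, hχι⟩ := exists_cyclic_char (l := (l : ℕ)) hlp
  have hu : ψ (loc (l : ℕ) ι) = 1 := hS l (fun h => hnot (Finset.mem_union_left _ h)) ι hι
  have hone : D.twist ψ χ hχ (loc (l : ℕ) ι) = D.ja 1 := by
    rw [D.twist_apply, hu, hχι, one_mul]
  refine ⟨D.twist ψ χ hχ, isOpen_of_lc _ (D.twist_lc (lc_of_isOpen ψ hψ) hχ hχlc), fun e => ?_,
    fun g => by rw [D.π_twist, hlift], l, fun h => hnot (Finset.mem_union_right _ h), fun h => ?_⟩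
  · obtain ⟨g, hg⟩ := hf (D.π e)
    obtain ⟨x, hx⟩ := D.exists_ja (e := (D.twist ψ χ hχ g)⁻¹ * e) (by
      rw [map_mul, map_inv, D.π_twist, hlift, hg, inv_mul_cancel])
    refine ⟨g * loc (l : ℕ) ι ^ x.val, ?_⟩
    have hpow : D.twist ψ χ hχ (loc (l : ℕ) ι) ^ x.val = D.ja x := by
      rw [hone, show D.ja 1 = D.j (Multiplicative.ofAdd 1) from rfl, ← map_pow, ← ofAdd_nsmul,
        nsmul_one, ZMod.natCast_zmod_val]
      rfl
    rw [map_mul, map_pow, hpow, hx, mul_inv_cancel_left]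
  · have h1 := (h ι hι).symm.trans hone
    rw [← D.ja_zero] at h1
    exact zero_ne_one (D.ja_injective h1)

/-- The kernels of the proper solutions form an infinite set. -/
theorem infinite_proper_lifts [Finite E] (hp2 : p ≠ 2) (D : CExt p E G) {f : GQ →* G}
    (hfo : IsOpen (f.ker : Set GQ)) (hf : Function.Surjective f)
    (hlocal : ∀ q : Nat.Primes, ¬ UnrAt f (q : ℕ) → ∃ β : LG (q : ℕ) →* E,
      LC₁ (LL (q : ℕ)) β ∧ ∀ τ, D.π (β τ) = f (loc (q : ℕ) τ)) :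
    {U : Subgroup GQ | ∃ ψ : GQ →* E, IsOpen (ψ.ker : Set GQ) ∧ Function.Surjective ψ ∧
      (∀ g, D.π (ψ g) = f g) ∧ ψ.ker = U}.Infinite := by
  classical
  intro hfin
  have hex : ∀ U : Subgroup GQ, ∃ S : Finset Nat.Primes, ∀ ψ : GQ →* E,
      IsOpen (ψ.ker : Set GQ) → ψ.ker = U → ∀ q, q ∉ S → UnrAt ψ (q : ℕ) := fun U => by
    by_cases h : ∃ ψ : GQ →* E, IsOpen (ψ.ker : Set GQ) ∧ ψ.ker = U
    · obtain ⟨ψ, hψ, rfl⟩ := h
      obtain ⟨S, hS⟩ := exists_finset_unrAt ψ hψ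
      exact ⟨S, fun ψ' _ he q hq ι hι => MonoidHom.mem_ker.1 (he ▸ hS q hq ι hι)⟩
    · exact ⟨∅, fun ψ hψ he => absurd ⟨ψ, hψ, he⟩ h⟩
  choose S hS using hex
  obtain ⟨ψ, h1, h2, h3, l, hl, hlr⟩ :=
    exists_proper_lift hp2 D hfo hf hlocal (hfin.toFinset.biUnion S)
  exact hlr (hS ψ.ker ψ h1 rfl l fun h => hl (Finset.mem_biUnion.2
    ⟨ψ.ker, hfin.mem_toFinset.2 ⟨ψ, h1, h2, h3, rfl⟩, h⟩))

end Fermat.Agent.ScholzReichardt
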