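import Fermat.Agent.ScholzReichardt.Lift
import Fermat.Agent.QuadForms.Ternary

/-!
# The Hasse principle for central embedding problems with kernel of order two

Over `ℚ(i)` the obstruction dies by the Hasse principle, so over `ℚ` it is a symbol `(r, -1)`.
It is trivial at every finite place, so `r` is everywhere locally a sum of two squares, hence by
the product formula and Hasse–Minkowski a norm from `ℚ(i)`: lifts exist as soon as they exist at
the finite places.
-/

set_option autoImplicit false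
set_option linter.unusedSectionVars false

noncomputable section

namespace Fermat.Agent.ScholzReichardt

open FA.GalCoh FA.QuadForms
open scoped Pointwise

local notation "Qb" => AlgebraicClosure ℚ

/-- A rational that is a sum of two squares in every `ℚ_q` is one in `ℚ`. -/
theorem exists_sum_two_squares_of_local {r : ℚ} (hr : r ≠ 0)
    (h : ∀ (q : ℕ) [Fact q.Prime], Iso3 (-1 : ℚ_[q]) (r : ℚ_[q])) :
    ∃ u v : ℚ, r = u ^ 2 + v ^ 2 := by
  have hden : (r.den : ℤ) ≠ 0 := Int.natCast_ne_zero.2 r.den_nz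
  set a : ℤ := r.num * r.den with ha_def
  have ha : a ≠ 0 := mul_ne_zero (Rat.num_ne_zero.2 hr) hden
  have hq : (a : ℚ) = r * (r.den : ℚ) ^ 2 := by
    rw [ha_def, Int.cast_mul, Int.cast_natCast, ← Rat.mul_den_eq_num r]
    ring
  have hloc : ∀ (q : ℕ) [Fact q.Prime], Iso3 ((-1 : ℤ) : ℚ_[q]) (a : ℚ_[q]) := fun q _ => by
    have h1 := (h q).mul_sq (s := 1) (t := ((r.den : ℕ) : ℚ_[q])) one_ne_zero
      (Nat.cast_ne_zero.2 r.den_nz)
    have e : (a : ℚ_[q]) = (r : ℚ_[q]) * ((r.den : ℕ) : ℚ_[q]) ^ 2 := by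
      have := congrArg (fun x : ℚ => (x : ℚ_[q])) hq
      simpa using this
    rw [e, Int.cast_neg, Int.cast_one]
    simpa using h1
  have hneg : (-1 : ℤ) ≠ 0 := by norm_num
  have hreal : sym 0 (-1) a = 1 := sym_eq_one_of_others hneg ha 0 fun v hv => by
    by_cases hvp : v.Prime
    · have := Fact.mk hvp
      exact sym_eq_one_of_iso hneg ha (hloc v)
    · rw [sym, if_neg hv, if_neg (fun e : v = 2 => hvp (e ▸ Nat.prime_two)), if_neg hvp]
  have hpos : 0 < a := by
    by_contra hle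
    rw [sym_zero, symReal, if_pos ⟨by norm_num, lt_of_le_of_ne (not_lt.1 hle) ha⟩] at hreal
    exact absurd hreal (by norm_num)
  have hR : Iso3 ((-1 : ℤ) : ℝ) (a : ℝ) :=
    ⟨0, 1, Real.sqrt a, Or.inr (Or.inl one_ne_zero), by
      rw [Real.sq_sqrt (by exact_mod_cast hpos.le)]; ring⟩
  obtain ⟨x, y, z, hne, he⟩ := iso3_of_local (-1) a hneg ha ⟨hR, hloc⟩
  rw [Int.cast_neg, Int.cast_one] at he
  rcases eq_or_ne y 0 with rfl | hy
  · have hz : z = 0 := by nlinarith [sq_nonneg z, sq_nonneg x]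
    have hx : x = 0 := by nlinarith [sq_nonneg z, sq_nonneg x]
    simp [hx, hz] at hne
  · refine ⟨x / (y * r.den), z / (y * r.den), ?_⟩
    have hd : (r.den : ℚ) ≠ 0 := Nat.cast_ne_zero.2 r.den_nz
    rw [hq] at he
    field_simp
    linear_combination he

/-- **Lifts exist as soon as they exist locally**, for a kernel of order two. -/
theorem exists_lift_of_local_two {E' : Type*} [Group E'] {G' : Type*} [Group G']
    (D : CExt 2 E' G') {f : GQ →* G'} (hfo : IsOpen (f.ker : Set GQ))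
    (hlocal : ∀ q : Nat.Primes, ∃ β : LG (q : ℕ) →* E', LC₁ (LL (q : ℕ)) β ∧
      ∀ τ, D.π (β τ) = f (loc (q : ℕ) τ)) :
    ∃ ψ : GQ →* E', IsOpen (ψ.ker : Set GQ) ∧ ∀ g, D.π (ψ g) = f g := by
  classical
  obtain ⟨Z, hlocT, hlift⟩ := exists_obstruction D hfo hlocal
  refine hlift ?_
  -- the quadratic character of `ℚ(i)`
  obtain ⟨I, hI⟩ : ∃ I : Qb, I ^ 2 = -1 := IsAlgClosed.exists_pow_nat_eq (-1) two_pos
  have hI0 : I ≠ 0 := fun h => by simp [h] at hI
  have hnegI : -I ≠ I := fun h => hI0 (by linear_combination (-1 / 2 : Qb) * h)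
  have hgI : ∀ g : GQ, g I = I ∨ g I = -I := fun g =>
    sq_eq_sq_iff_eq_or_eq_neg.1 (by rw [← map_pow, hI, map_neg, map_one])
  have hcI : complexConjugation I = -I := by
    have hsq : complexEmbedding I * complexEmbedding I = -1 := by
      rw [← map_mul, ← sq, hI, map_neg, map_one]
    refine complexEmbedding.toRingHom.injective ?_
    show complexEmbedding _ = complexEmbedding _
    rw [complexEmbedding_complexConjugation, map_neg]
    rcases mul_self_eq_mul_self_iff.1 (hsq.trans Complex.I_mul_I.symm) with h | h <;> simp [h]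
  let χ : (⊤ : Subgroup GQ) → ZMod 2 := fun g => if g.1 I = I then 0 else 1
  have hχ0 : ∀ g, χ g = 0 ↔ g.1 I = I := fun g => by
    by_cases h : g.1 I = I <;> simp [χ, h]
  let C : CycData (LQ.sub (⊤ : Subgroup GQ)) χ :=
    { hom := fun g h => by
        rcases hgI g.1 with hg | hg <;> rcases hgI h.1 with hh | hh <;>
          simp [χ, AlgEquiv.mul_apply, hg, hh, hnegI, show (1 : ZMod 2) + 1 = 0 from rfl]
      lc := by
        obtain ⟨N, hN, hs⟩ := (cycQ 2).gal.smooth I
        exact ⟨_, ⟨N, hN, rfl⟩, fun g s hsN => by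
          have : (s : GQ) I = I := hs _ hsN
          simp [χ, AlgEquiv.mul_apply, this]⟩
      σ := ⟨complexConjugation, Subgroup.mem_top _⟩
      map_σ := by simp [χ, hcI, hnegI] }
  have htopmem : (⊤ : Subgroup GQ) ∈ LQ.carrier := LQ.top_mem
  let K := (cycQ 2).kumData (⊤ : Subgroup GQ) fun h _ => Subsingleton.elim _ _
  -- the obstruction dies over `ℚ(i)`
  have hTC : TC (extSub C) := fun g hg => by
    obtain ⟨_, h0⟩ := (mem_extSub C).1 hg
    rw [hχ0] at h0
    change g (complexConjugation (g⁻¹ I)) = I at h0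
    rcases hgI g⁻¹ with hg' | hg' <;> rcases hgI g with hg'' | hg'' <;>
      simp [hg', hcI, hg'', hnegI] at h0
    all_goals
      have h1 : g (g⁻¹ I) = I := g.apply_symm_apply I
      simp [hg', hg'', hnegI] at h1
  have hzero := hasse_H2 (extSub_mem C htopmem) hTC
    ((cycQ 2).kumData (extSub C) fun h _ => Subsingleton.elim _ _) (hlocT (extSub C))
  set ztop := res2t (p := 2) (Levels.sub_compat LQ (⊤ : Subgroup GQ)) (mk2 LQ (triv GQ 2) Z)
    with hztop
  suffices hz : ztop = 0 by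
    refine res2t_injective (Levels.sub_compat LQ (⊤ : Subgroup GQ))
      (g := (MonoidHom.id GQ).codRestrict ⊤ Subgroup.mem_top) ?_ (fun _ => rfl)
      (hz.trans (map_zero _).symm)
    rintro _ ⟨N, hN, rfl⟩
    exact ⟨N, hN, fun g hg => hg⟩
  obtain ⟨Z', hZ'⟩ := mk2_surjective ztop
  obtain ⟨a, ha⟩ := exists_symb_of_extSub K C Z' (by
    rw [hZ', hztop, ← hzero]
    rfl)
  obtain ⟨r, hr, har⟩ : ∃ r : ℚ, r ≠ 0 ∧ a.1.val = (r : Qb) :=
    exists_rat_of_fixUM ⟨a.1, fun g => a.2 ⟨g, Subgroup.mem_top g⟩⟩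
  -- the local symbols
  have hiso : ∀ (q : ℕ) [Fact q.Prime], Iso3 (-1 : ℚ_[q]) (r : ℚ_[q]) := fun q _ => by
    set j := emb q 1 I
    have hj : j ^ 2 = -1 := by rw [← map_pow, hI, map_neg, map_one]
    have hj0 : j ≠ 0 := fun h => by simp [h] at hj
    have hnegj : -j ≠ j := fun h => hj0 (by linear_combination (-1 / 2 : PadicAlgCl q) * h)
    have hbase : ∀ x : PadicAlgCl q, (∀ τ : LG q, τ x = x) →
        ∃ u : ℚ_[q], algebraMap ℚ_[q] (PadicAlgCl q) u = x := fun x hx => by
      have h : x ∈ IntermediateField.fixedField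
          (⊥ : IntermediateField ℚ_[q] (PadicAlgCl q)).fixingSubgroup :=
        (IntermediateField.mem_fixedField_iff _ _).2 fun g _ => hx g
      rwa [InfiniteGalois.fixedField_fixingSubgroup, IntermediateField.mem_bot] at h
    have hmem : ∀ τ : LG q, τ ∈ hloc (⊤ : Subgroup GQ) q 1 := fun τ =>
      (mem_hloc _).2 (Subgroup.mem_top _)
    let T : LG q → hloc (⊤ : Subgroup GQ) q 1 := fun τ => ⟨τ, hmem τ⟩
    have hτj : ∀ τ, τ j = emb q 1 ((locTo (⊤ : Subgroup GQ) q 1 (T τ) : GQ) I) := fun τ =>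
      (emb_locTo _ 1 (T τ) I).symm
    have hcase : ∀ τ, (χ (locTo _ q 1 (T τ)) = 0 → τ j = j) ∧
        (χ (locTo _ q 1 (T τ)) ≠ 0 → τ j = -j) := fun τ => by
      refine ⟨fun h => ?_, fun h => ?_⟩
      · rw [hτj, (hχ0 _).1 h]
      · rw [hτj]
        rcases hgI (locTo (⊤ : Subgroup GQ) q 1 (T τ) : GQ) with h' | h'
        · exact absurd ((hχ0 _).2 h') h
        · rw [h', map_neg]
    by_cases hsplit : ∀ τ, χ (locTo _ q 1 (T τ)) = 0
    · obtain ⟨w, hw⟩ := hbase j fun τ => (hcase τ).1 (hsplit τ)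
      refine ⟨1, 0, w, Or.inl one_ne_zero, (algebraMap ℚ_[q] (PadicAlgCl q)).injective ?_⟩
      simp [hw, hj]
    push Not at hsplit
    obtain ⟨σ, hσ⟩ := hsplit
    have hσ1 : χ (locTo _ q 1 (T σ)) = 1 :=
      ((by decide : ∀ x : ZMod 2, x ≠ 0 → x = 1) _) hσ
    let χq : hloc (⊤ : Subgroup GQ) q 1 → ZMod 2 := fun τ => χ (locTo _ q 1 τ)
    let Cq : CycData ((LL q).sub (hloc (⊤ : Subgroup GQ) q 1)) χq :=
      { hom := fun g h => by simp only [χq, map_mul, C.hom]
        lc := C.lc.precomp (compat_locTo 1)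
        σ := T σ
        map_σ := hσ1 }
    have hsymb : symb ((locKum K q 1).kum (locEl _ q 1 a)) Cq.cls = 0 := by
      have h0 := hlocT (⊤ : Subgroup GQ) q 1
      rw [← hztop, ← hZ', ha, res2t_symb, locH1_kum] at h0
      exact h0
    obtain ⟨x, hx, hax⟩ := ((locKum K q 1).symb_eq_zero_iff Cq _).1 hsymb
    have hax' : (r : PadicAlgCl q) = x.val * σ x.val := by
      have h1 := congrArg UM.val hax
      rw [Finset.sum_range_succ, Finset.sum_range_one, pow_zero, pow_one, one_smul, UM.val_add,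
        val_locEl, har, map_ratCast] at h1
      exact h1
    have hker : ∀ τ, χ (locTo _ q 1 (T τ)) = 0 → τ x.val = x.val := fun τ hτ =>
      congrArg UM.val (hx (T τ) hτ)
    have hodd : ∀ τ, χ (locTo _ q 1 (T τ)) ≠ 0 → τ x.val = σ x.val ∧ τ (σ x.val) = x.val := by
      intro τ hτ
      have hτ1 : χ (locTo _ q 1 (T τ)) = 1 := ((by decide : ∀ x : ZMod 2, x ≠ 0 → x = 1) _) hτ
      have hTm : ∀ s t, T (s * t) = T s * T t := fun s t => rfl
      have h2 : ∀ s t, χ (locTo _ q 1 (T s)) = 1 → χ (locTo _ q 1 (T t)) = 1 →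
          χ (locTo _ q 1 (T (s * t))) = 0 := fun s t hs ht => by
        rw [hTm, map_mul, C.hom, hs, ht]
        rfl
      have hinv : χ (locTo _ q 1 (T σ⁻¹)) = 1 := by
        have h3 : χ (locTo _ q 1 (T (σ⁻¹ * σ))) = 0 := by
          rw [inv_mul_cancel, show T 1 = 1 from rfl, map_one]
          exact C.map_one
        rw [hTm, map_mul, C.hom, hσ1] at h3
        exact ((by decide : ∀ x : ZMod 2, x + 1 = 0 → x = 1) _) h3
      refine ⟨?_, ?_⟩
      · have h3 := congrArg σ (hker _ (h2 σ⁻¹ τ hinv hτ1))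
        rwa [AlgEquiv.mul_apply, show σ (σ⁻¹ (τ x.val)) = τ x.val from σ.apply_symm_apply _] at h3
      · exact hker _ (h2 τ σ hτ1 hσ1)
    have hker' : ∀ τ, χ (locTo _ q 1 (T τ)) = 0 → τ (σ x.val) = σ x.val := fun τ hτ => by
      have hTm : ∀ s t, T (s * t) = T s * T t := fun s t => rfl
      have h0 : χ (locTo _ q 1 (T (σ⁻¹ * σ))) = 0 := by
        rw [inv_mul_cancel, show T 1 = 1 from rfl, map_one]
        exact C.map_one
      rw [hTm, map_mul, C.hom] at h0
      have h3 := congrArg σ (hker (σ⁻¹ * τ * σ) (by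
        rw [hTm, hTm, map_mul, map_mul, C.hom, C.hom, hτ, add_zero]
        exact h0))
      rw [AlgEquiv.mul_apply, AlgEquiv.mul_apply] at h3
      rwa [show σ (σ⁻¹ (τ (σ x.val))) = τ (σ x.val) from σ.apply_symm_apply _] at h3
    obtain ⟨u, hu⟩ := hbase ((x.val + σ x.val) / 2) fun τ => by
      rw [map_div₀, map_add, map_ofNat]
      by_cases h : χ (locTo _ q 1 (T τ)) = 0
      · rw [hker τ h, hker' τ h]
      · rw [(hodd τ h).1, (hodd τ h).2, add_comm]
    obtain ⟨v, hv⟩ := hbase ((x.val - σ x.val) / (2 * j)) fun τ => by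
      rw [map_div₀, map_sub, map_mul, map_ofNat]
      by_cases h : χ (locTo _ q 1 (T τ)) = 0
      · rw [hker τ h, hker' τ h, (hcase τ).1 h]
      · rw [(hodd τ h).1, (hodd τ h).2, (hcase τ).2 h]
        field_simp
        ring
    refine ⟨u, 1, v, Or.inr (Or.inl one_ne_zero), (algebraMap ℚ_[q] (PadicAlgCl q)).injective ?_⟩
    simp only [map_add, map_mul, map_pow, map_neg, map_one, map_ratCast, hu, hv, hax']
    field_simp
    linear_combination -(x.val - σ x.val) ^ 2 * hj
  -- so it is a norm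
  obtain ⟨u, v, huv⟩ := exists_sum_two_squares_of_local hr hiso
  have hprod : ((u : Qb) + v * I) * ((u : Qb) - v * I) = (r : Qb) := by
    rw [huv, Rat.cast_add, Rat.cast_pow, Rat.cast_pow]
    linear_combination (-(v : Qb) ^ 2) * hI
  have hx0 : (u : Qb) + v * I ≠ 0 := fun h => by
    rw [h, zero_mul] at hprod
    exact hr (Rat.cast_eq_zero.1 hprod.symm)
  rw [← hZ', ha]
  refine (K.symb_eq_zero_iff C a).2 ⟨UM.mk _ hx0, fun g hg => UM.ext ?_, UM.ext ?_⟩
  · show g.1 ((u : Qb) + v * I) = _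
    rw [map_add, map_mul, map_ratCast, map_ratCast, (hχ0 g).1 hg]
    rfl
  · rw [Finset.sum_range_succ, Finset.sum_range_one, pow_zero, pow_one, one_smul, UM.val_add,
      UM.val_smul, UM.val_mk]
    show a.1.val = ((u : Qb) + v * I) * complexConjugation ((u : Qb) + v * I)
    rw [map_add, map_mul, map_ratCast, map_ratCast, hcI, har, ← hprod]
    ring

variable {p : ℕ} [hp : Fact p.Prime]

/-- **Lifts exist as soon as they exist locally**, for every prime. -/
theorem exists_lift_of_local' {E' : Type*} [Group E'] {G' : Type*} [Group G'] (D : CExt p E' G')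
    {f : GQ →* G'} (hfo : IsOpen (f.ker : Set GQ))
    (hlocal : ∀ q : Nat.Primes, ∃ β : LG (q : ℕ) →* E', LC₁ (LL (q : ℕ)) β ∧
      ∀ τ, D.π (β τ) = f (loc (q : ℕ) τ)) :
    ∃ ψ : GQ →* E', IsOpen (ψ.ker : Set GQ) ∧ ∀ g, D.π (ψ g) = f g := by
  rcases eq_or_ne p 2 with rfl | hp2
  · exact exists_lift_of_local_two D hfo hlocal
  · exact exists_lift_of_local hp2 D hfo hlocal

end Fermat.Agent.ScholzReichardt
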