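import Fermat.Agent.ScholzReichardt.Characters
import Fermat.Agent.QuadForms.Squares

/-!
# Quadratic characters of the decomposition group at two

Every class of `ℚ_2ˣ` modulo squares is `e 2 ^ α` or `5 e 2 ^ α` with `e = ±1`, and a square root
of `5` is fixed by inertia. So on inertia every quadratic character is that of a square root of a
rational supported at `2`, which is unramified at the other primes.
-/

set_option autoImplicit false
set_option linter.unusedSectionVars false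

noncomputable section

namespace Fermat.Agent.ScholzReichardt

open FA.GalCoh FA.QuadForms
open scoped Pointwise

local notation "Qb" => AlgebraicClosure ℚ

/-- Inertia moves a square root of `m` only at the primes dividing `2 m`. -/
theorem inertia_sqrt_of_not_dvd {l : ℕ} [Fact l.Prime] {m : ℤ} (h : ¬ (l : ℤ) ∣ 2 * m) {b : Qb}
    (hb : b ^ 2 = (m : Qb)) {ι : LG l} (hι : ι ∈ inertL l) : loc l ι b = b := by
  set A := padicPlace l
  have hint : IsIntegral ℤ b := IsIntegral.of_pow two_pos (hb ▸ isIntegral_algebraMap)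
  have hmem : b ∈ A := FA.Deform.zbar_mem_valuationSubring A ⟨b, hint⟩
  have hlt := (FA.Local.inert_of_mem_inertiaSubgroupIn A (show loc l ι ∈ _ from hι)).sub_lt b
    ((A.valuation_le_one_iff _).2 hmem)
  rcases sq_eq_sq_iff_eq_or_eq_neg.1 (show (loc l ι b) ^ 2 = b ^ 2 by
    rw [← map_pow, hb, map_intCast]) with h1 | h1
  · exact h1
  refine absurd ?_ h
  rw [h1, show -b - b = -(2 * b) by ring, Valuation.map_neg] at hlt
  have hl : A.valuation (l : Qb) < 1 :=
    A.mem_nonunits_iff.1 (liesOverPrime_padicPlace l)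
  have h4 : A.valuation ((4 * m : ℤ) : Qb) < 1 := by
    rw [show ((4 * m : ℤ) : Qb) = (2 * b) * (2 * b) by push_cast; rw [← hb]; ring, map_mul]
    exact (mul_le_mul' le_rfl hlt.le).trans_lt (by rwa [mul_one])
  have hl' : (l : ℤ) ∣ 4 * m := by
    by_contra hnd
    obtain ⟨x, y, hxy⟩ : ∃ x y : ℤ, x * l + y * (4 * m) = 1 :=
      (Nat.prime_iff_prime_int.1 (Fact.out : l.Prime)).coprime_iff_not_dvd.2 hnd
    have hle : ∀ z : ℤ, A.valuation (z : Qb) ≤ 1 := fun z =>
      (A.valuation_le_one_iff _).2 (intCast_mem A z)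
    have h5 := congrArg (fun z : ℤ => A.valuation (z : Qb)) hxy
    simp only [Int.cast_add, Int.cast_mul, Int.cast_natCast, Int.cast_one, map_one] at h5
    refine absurd (h5 ▸ Valuation.map_add_lt _ ?_ ?_) (lt_irrefl _)
    · rw [map_mul]
      exact (mul_le_mul' (hle x) le_rfl).trans_lt (by rwa [one_mul])
    · rw [map_mul]
      exact (mul_le_mul' (hle y) le_rfl).trans_lt (by rw [one_mul]; simpa using h4)
  rcases (Nat.prime_iff_prime_int.1 (Fact.out : l.Prime)).dvd_or_dvd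
    (show (l : ℤ) ∣ 2 * (2 * m) by rwa [← mul_assoc]) with h6 | h6
  · exact h6.mul_right m
  · exact h6

/-- A square root of `5` is fixed by inertia at `2`. -/
theorem inertia_sqrt_five {b : Qb} (hb : b ^ 2 = 5) {ι : LG 2} (hι : ι ∈ inertL 2) :
    loc 2 ι b = b := by
  set A := padicPlace 2
  set θ : Qb := (1 + b) / 2 with hθ
  have hint : IsIntegral ℤ θ :=
    ⟨Polynomial.X ^ 2 - Polynomial.X - 1, by monicity!, by
      simp only [Polynomial.eval₂_sub, Polynomial.eval₂_X_pow, Polynomial.eval₂_X,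
        Polynomial.eval₂_one, hθ]
      linear_combination hb / 4⟩
  have hlt := (FA.Local.inert_of_mem_inertiaSubgroupIn A (show loc 2 ι ∈ _ from hι)).sub_lt θ
    ((A.valuation_le_one_iff _).2 (FA.Deform.zbar_mem_valuationSubring A ⟨θ, hint⟩))
  rcases sq_eq_sq_iff_eq_or_eq_neg.1 (show (loc 2 ι b) ^ 2 = b ^ 2 by
    rw [← map_pow, hb, map_ofNat]) with h1 | h1
  · exact h1
  exfalso
  rw [hθ, map_div₀, map_add, map_one, map_ofNat, h1,
    show (1 + -b) / 2 - (1 + b) / 2 = -b by ring, Valuation.map_neg] at hlt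
  have h5 : A.valuation (5 : Qb) < 1 := by
    rw [← hb, map_pow]
    exact pow_lt_one₀ zero_le hlt two_ne_zero
  have h2 : A.valuation (2 : Qb) < 1 := by
    simpa using A.mem_nonunits_iff.1 (liesOverPrime_padicPlace 2)
  have h4 : A.valuation (-(2 * 2) : Qb) < 1 := by
    rw [Valuation.map_neg, map_mul]
    exact (mul_le_mul' le_rfl h2.le).trans_lt (by rwa [mul_one])
  have h1' := Valuation.map_add_lt A.valuation h5 h4
  norm_num at h1'

/-- The sign character of a nonzero element killed by squaring. -/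
theorem exists_sqrt_char {b : Qb} (hb0 : b ≠ 0) {m : ℤ} (hb : b ^ 2 = (m : Qb)) :
    ∃ χ : GQ → ZMod 2, (∀ g h, χ (g * h) = χ g + χ h) ∧ LC₁ LQ χ ∧
      ∀ g, (χ g = 0 ↔ g b = b) := by
  classical
  have hneg : -b ≠ b := fun h => hb0 (by linear_combination (-1 / 2 : Qb) * h)
  have hg : ∀ g : GQ, g b = b ∨ g b = -b := fun g =>
    sq_eq_sq_iff_eq_or_eq_neg.1 (by rw [← map_pow, hb, map_intCast])
  refine ⟨fun g => if g b = b then 0 else 1, fun g h => ?_, ?_, fun g => ?_⟩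
  · rcases hg g with hg' | hg' <;> rcases hg h with hh | hh <;>
      simp [AlgEquiv.mul_apply, hg', hh, hneg, show (1 : ZMod 2) + 1 = 0 from rfl]
  · obtain ⟨N, hN, hs⟩ := (cycQ 2).gal.smooth b
    exact ⟨N, hN, fun g s hsN => by
      have : s b = b := hs s hsN
      simp [AlgEquiv.mul_apply, this]⟩
  · by_cases h : g b = b <;> simp [h]

/-- **The square classes of `ℚ_2`** in the shape used here. -/
theorem exists_squareClass_two {a : ℚ_[2]} (ha : a ≠ 0) :
    ∃ (e w : ℤ) (α : ℕ) (s : ℚ_[2]), (e = 1 ∨ e = -1) ∧ (w = 1 ∨ w = 5) ∧ α < 2 ∧ s ≠ 0 ∧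
      a = (e : ℚ_[2]) * w * 2 ^ α * s ^ 2 := by
  obtain ⟨α, r, hα, hr, hcl⟩ := exists_squareClass ha
  obtain ⟨e, w, he, hw, hew⟩ : ∃ e w : ℤ, (e = 1 ∨ e = -1) ∧ (w = 1 ∨ w = 5) ∧
      (8 : ℤ) ∣ e * w - r := by
    rw [Nat.cast_ofNat] at hr
    rcases (show r % 8 = 1 ∨ r % 8 = 3 ∨ r % 8 = 5 ∨ r % 8 = 7 by omega) with h | h | h | h
    · exact ⟨1, 1, Or.inl rfl, Or.inl rfl, by omega⟩
    · exact ⟨-1, 5, Or.inr rfl, Or.inr rfl, by omega⟩
    · exact ⟨1, 5, Or.inl rfl, Or.inr rfl, by omega⟩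
    · exact ⟨-1, 1, Or.inr rfl, Or.inl rfl, by omega⟩
  obtain ⟨s, hs, hsa⟩ := hcl (e * w) (by rw [Nat.cast_ofNat]; norm_num; exact hew)
  refine ⟨e, w, α, s, he, hw, hα, hs, ?_⟩
  rw [hsa, Int.cast_mul, Nat.cast_ofNat]

/-- On inertia at `2` a quadratic character extends to one of `G_ℚ` unramified away from `2`. -/
theorem exists_wild_char_two (d : LG 2 → ZMod 2) (hd : ∀ a b, d (a * b) = d a + d b)
    (hlc : LC₁ (LL 2) d) :
    ∃ χ : GQ → ZMod 2, (∀ a b, χ (a * b) = χ a + χ b) ∧ LC₁ LQ χ ∧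
      (∀ (l : ℕ) [Fact l.Prime], l ≠ 2 → ∀ ι ∈ inertL l, χ (loc l ι) = 0) ∧
      ∀ ι ∈ inertL 2, χ (loc 2 ι) = d ι := by
  classical
  let K := (cycL 2 2).kumData (⊤ : Subgroup (LG 2)) fun _ _ => Subsingleton.elim _ _
  let f : ↥(Z1 ((LL 2).sub (⊤ : Subgroup (LG 2))) (triv (⊤ : Subgroup (LG 2)) 2)) :=
    ⟨fun g => d g.1, hlc.precomp (Levels.sub_compat (LL 2) ⊤), fun g h => by
      show d (g.1 * h.1) = _
      rw [hd, add_comm]; rfl⟩
  obtain ⟨a, ha⟩ := K.kum_surjective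
    (mk1 ((LL 2).sub (⊤ : Subgroup (LG 2))) (triv (⊤ : Subgroup (LG 2)) 2) f)
  have hkc : ∀ τ : LG 2, K.kc a ⟨τ, Subgroup.mem_top τ⟩ = d τ := fun τ =>
    congrFun (congrArg Subtype.val (mk1_triv_injective ((K.kum_apply a).symm.trans ha)))
      ⟨τ, Subgroup.mem_top τ⟩
  obtain ⟨c, hc⟩ : ∃ c : ℚ_[2], algebraMap ℚ_[2] (PadicAlgCl 2) c = a.1.val := by
    have h : a.1.val ∈ IntermediateField.fixedField
        (⊥ : IntermediateField ℚ_[2] (PadicAlgCl 2)).fixingSubgroup :=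
      (IntermediateField.mem_fixedField_iff _ _).2 fun g _ =>
        congrArg UM.val (a.2 ⟨g, Subgroup.mem_top g⟩)
    rwa [InfiniteGalois.fixedField_fixingSubgroup, IntermediateField.mem_bot] at h
  have hc0 : c ≠ 0 := fun h => a.1.val_ne_zero (by rw [← hc, h, map_zero])
  obtain ⟨e, w, α, s, he, hw, hα, hs, hsc⟩ := exists_squareClass_two hc0
  obtain ⟨b, hb⟩ : ∃ b : Qb, b ^ 2 = ((e * 2 ^ α : ℤ) : Qb) :=
    IsAlgClosed.exists_pow_nat_eq _ two_pos
  obtain ⟨b', hb'⟩ : ∃ b' : Qb, b' ^ 2 = (w : Qb) := IsAlgClosed.exists_pow_nat_eq _ two_pos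
  have he0 : e ≠ 0 := by rcases he with rfl | rfl <;> norm_num
  have hb0 : b ≠ 0 := fun h => by
    rw [h, zero_pow two_ne_zero, eq_comm, Int.cast_eq_zero] at hb
    exact mul_ne_zero he0 (pow_ne_zero _ two_ne_zero) hb
  obtain ⟨χ, hχ, hχlc, hχ0⟩ := exists_sqrt_char hb0 hb
  refine ⟨χ, hχ, hχlc, fun l _ hl ι hι => (hχ0 _).2 (inertia_sqrt_of_not_dvd ?_ hb hι),
    fun ι hι => ?_⟩
  · intro hdvd
    have hl' : Prime (l : ℤ) := Nat.prime_iff_prime_int.1 Fact.out
    have h2 : ¬ (l : ℤ) ∣ 2 := fun h =>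
      hl ((Nat.prime_dvd_prime_iff_eq Fact.out Nat.prime_two).1 (Int.natCast_dvd_natCast.1 h))
    rcases hl'.dvd_or_dvd hdvd with h | h
    · exact h2 h
    rcases hl'.dvd_or_dvd h with h | h
    · rcases he with rfl | rfl
      · exact hl'.not_dvd_one h
      · exact hl'.not_dvd_one (dvd_neg.1 h)
    · exact h2 (hl'.dvd_of_dvd_pow h)
  have hfix : loc 2 ι b' = b' := by
    rcases hw with rfl | rfl
    · rcases sq_eq_one_iff.1 (show b' ^ 2 = 1 by simpa using hb') with h | h <;> simp [h]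
    · exact inertia_sqrt_five (by simpa using hb') hι
  -- compare the two square roots of `c`
  set R : PadicAlgCl 2 := padicEmbedding 2 b * padicEmbedding 2 b' * algebraMap ℚ_[2] _ s
  set A : PadicAlgCl 2 := (K.kroot a.1).val
  have hA : A ^ 2 = a.1.val := by rw [← UM.val_nsmul, K.nsmul_kroot]
  have hR : R ^ 2 = a.1.val := by
    rw [← hc, hsc, mul_pow, mul_pow, ← map_pow, ← map_pow, hb, hb', map_intCast, map_intCast]
    simp only [map_mul, map_pow, map_intCast, map_ofNat, Int.cast_mul, Int.cast_pow,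
      Int.cast_ofNat]
    ring
  have hA0 : A ≠ 0 := UM.val_ne_zero _
  have hιR : ι R = if χ (loc 2 ι) = 0 then R else -R := by
    have h1 : ι R = padicEmbedding 2 (loc 2 ι b) * padicEmbedding 2 (loc 2 ι b') *
        algebraMap ℚ_[2] _ s := by
      rw [map_mul, map_mul, iota_loc, iota_loc, AlgEquiv.commutes]
    rw [h1, hfix]
    split_ifs with h
    · rw [(hχ0 _).1 h]
    · rcases sq_eq_sq_iff_eq_or_eq_neg.1 (show (loc 2 ι b) ^ 2 = b ^ 2 by
        rw [← map_pow, hb, map_intCast]) with h' | h'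
      · exact absurd ((hχ0 _).2 h') h
      · rw [h', map_neg, neg_mul, neg_mul]
  have hιA : ι A = if χ (loc 2 ι) = 0 then A else -A := by
    rcases sq_eq_sq_iff_eq_or_eq_neg.1 (hA.trans hR.symm) with h | h <;>
      rw [h] <;> split_ifs with h' <;> simp [hιR, h']
  have hζ : (K.ζ : PadicAlgCl 2) = -1 := K.prim.eq_neg_one_of_two_right
  have h2 := congrArg UM.val (K.eps_kc a (K.nsmul_kroot a.1) ⟨ι, Subgroup.mem_top ι⟩)
  rw [hkc, K.eps_val, UM.val_sub, UM.val_smul] at h2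
  change K.ζ ^ (d ι).val = ι A / A at h2
  rw [hιA, hζ] at h2
  have hne : (-1 : PadicAlgCl 2) ≠ 1 := fun h => by norm_num at h
  rcases (by decide : ∀ x : ZMod 2, x = 0 ∨ x = 1) (d ι) with hd' | hd' <;>
    rcases (by decide : ∀ x : ZMod 2, x = 0 ∨ x = 1) (χ (loc 2 ι)) with hx | hx <;>
    rw [hd', hx] at h2 ⊢ <;>
      simp [hA0, hne, hne.symm, show ((1 : ZMod 2)).val = 1 from rfl] at h2

variable {p : ℕ} [hp : Fact p.Prime]

/-- On inertia a local character extends to a character of `G_ℚ` unramified away from `p`, for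
every prime. -/
theorem exists_wild_char' (d : LG p → ZMod p) (hd : ∀ a b, d (a * b) = d a + d b)
    (hlc : LC₁ (LL p) d) :
    ∃ χ : GQ → ZMod p, (∀ a b, χ (a * b) = χ a + χ b) ∧ LC₁ LQ χ ∧
      (∀ (l : ℕ) [Fact l.Prime], l ≠ p → ∀ ι ∈ inertL l, χ (loc l ι) = 0) ∧
      ∀ ι ∈ inertL p, χ (loc p ι) = d ι := by
  rcases eq_or_ne p 2 with rfl | hp2
  · exact exists_wild_char_two d hd hlc
  · exact exists_wild_char hp2 d hd hlc

end Fermat.Agent.ScholzReichardt
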