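import Fermat.Agent.ScholzReichardt.Lift
import Fermat.Agent.ScholzReichardt.WildTwo

/-!
# Removing new ramification from a lift

Where the given extension is unramified a lift has central inertia image, which a cyclotomic
character cancels.
-/

set_option autoImplicit false
set_option linter.unusedSectionVars false

noncomputable section

namespace Fermat.Agent.ScholzReichardt

open FA.GalCoh
open scoped Pointwise

variable {p : ℕ} [hp : Fact p.Prime] {E : Type} [Group E] [Finite E] {G : Type} [Group G]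
variable {N : ℕ}

theorem CExt.ja_pow (D : CExt p E G) (a : ZMod p) (i : ℕ) : D.ja a ^ i = D.ja (i * a) := by
  induction i with
  | zero => rw [pow_zero, Nat.cast_zero, zero_mul, D.ja_zero]
  | succ i ih => rw [pow_succ, ih, ← D.ja_add, Nat.cast_succ, add_mul, one_mul]

theorem CExt.commute_of_π (D : CExt p E G) {e : E} (h : D.π e = 1) (x : E) : Commute e x := by
  obtain ⟨a, rfl⟩ := D.exists_ja h
  exact D.ja_comm a x

/-- One prime at a time. -/
theorem exists_twist_at' (D : CExt p E G) (hE : IsPGroup p E) {f : GQ →* G}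
    (hfo : IsOpen (f.ker : Set GQ)) {ψ : GQ →* E} (hψ : IsOpen (ψ.ker : Set GQ))
    (hlift : ∀ g, D.π (ψ g) = f g) (q : Nat.Primes) (hu : UnrAt f (q : ℕ)) :
    ∃ χ : GQ → ZMod p, (∀ a b, χ (a * b) = χ a + χ b) ∧ LC₁ LQ χ ∧
      (∀ (l : ℕ) [Fact l.Prime], l ≠ (q : ℕ) → ∀ ι ∈ inertL l, χ (loc l ι) = 0) ∧
      ∀ ι ∈ inertL (q : ℕ), ψ (loc (q : ℕ) ι) * D.ja (χ (loc (q : ℕ) ι)) = 1 := by
  by_cases hψu : UnrAt ψ (q : ℕ)
  · exact ⟨0, fun _ _ => (add_zero 0).symm, LC₁.const 0, fun _ _ _ _ _ => rfl, fun ι hι => by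
      rw [hψu ι hι, one_mul]; exact D.ja_zero⟩
  by_cases hqp : (q : ℕ) = p
  · obtain rfl : q = ⟨p, hp.out⟩ := Subtype.ext hqp
    change ∃ χ : GQ → ZMod p, (∀ a b, χ (a * b) = χ a + χ b) ∧ LC₁ LQ χ ∧
      (∀ (l : ℕ) [Fact l.Prime], l ≠ p → ∀ ι ∈ inertL l, χ (loc l ι) = 0) ∧
      ∀ ι ∈ inertL p, ψ (loc p ι) * D.ja (χ (loc p ι)) = 1
    change UnrAt f p at hu
    set e := ψ (loc p (frobL p)) with he
    have : NeZero (orderOf e) := ⟨(isOfFinOrder_of_finite e).orderOf_pos.ne'⟩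
    let β : LG p →* E := powChar e (pow_orderOf_eq_one e) (frobExp (orderOf e)) frobExp_mul
    have hβlc : LC₁ (LL p) β := powChar_lc _ _ _ (frobExp_lc _)
    have hβ : ∀ τ, D.π (β τ) = f (loc p τ) := fun τ =>
      DFunLike.congr_fun (locHom_ext (f := D.π.comp β) (f' := f.comp (loc p))
        (hβlc.comp D.π) (loc_lc f hfo p) (fun ι hι => by
          show D.π (e ^ (frobExp _ ι).val) = f (loc p ι)
          rw [frobExp_inertL hι, ZMod.val_zero, pow_zero, map_one, hu ι hι]) (by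
          show D.π (e ^ (frobExp _ (frobL p)).val) = f (loc p (frobL p))
          rw [frobExp_frobL, ← hlift, ← he]
          rcases Nat.eq_or_lt_of_le (isOfFinOrder_of_finite e).orderOf_pos with h1 | h1
          · rw [(orderOf_eq_one_iff.1 h1.symm), one_pow]
          · have : Fact (1 < orderOf e) := ⟨h1⟩
            rw [ZMod.val_one, pow_one])) τ
    have hd0 : ∀ τ, D.π (ψ (loc p τ) * (β τ)⁻¹) = 1 := fun τ => by
      rw [map_mul, map_inv, hlift, hβ, mul_inv_cancel]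
    choose d hd using fun τ => D.exists_ja (hd0 τ)
    have hdmul : ∀ a b, d (a * b) = d a + d b := fun a b => D.ja_injective (by
      rw [D.ja_add, hd, map_mul, map_mul, map_mul, mul_inv_rev]
      calc ψ (loc p a) * ψ (loc p b) * ((β b)⁻¹ * (β a)⁻¹)
          = ψ (loc p a) * D.ja (d b) * (β a)⁻¹ := by rw [hd]; group
        _ = ψ (loc p a) * (β a)⁻¹ * D.ja (d b) := by rw [mul_assoc, D.ja_comm, ← mul_assoc]
        _ = _ := by rw [hd a])
    have hdlc : LC₁ (LL p) fun τ => -d τ := by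
      obtain ⟨M, hM, hMs⟩ := (loc_lc ψ hψ p).map₂ hβlc fun a b => a * b⁻¹
      refine ⟨M, hM, fun g s hs => congrArg Neg.neg (D.ja_injective ?_)⟩
      rw [hd, hd]
      exact hMs g s hs
    obtain ⟨χ, hχ, hχlc, hχu, hχp⟩ :=
      exists_wild_char' (fun τ => -d τ) (fun a b => by rw [hdmul, neg_add]) hdlc
    refine ⟨χ, hχ, hχlc, hχu, fun ι hι => ?_⟩
    have h1 : β ι = 1 := by
      show e ^ (frobExp _ ι).val = 1
      rw [frobExp_inertL hι, ZMod.val_zero, pow_zero]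
    have h2 : ψ (loc p ι) = D.ja (d ι) := by rw [hd, h1, inv_one, mul_one]
    rw [hχp ι hι, h2, ← D.ja_add, add_neg_cancel, D.ja_zero]
  · have hcent : ∀ ι ∈ inertL (q : ℕ), ∀ x, Commute (ψ (loc (q : ℕ) ι)) x := fun ι hι =>
      D.commute_of_π (by rw [hlift, hu ι hι])
    have hdvd := dvd_sub_one_of_central hqp hE ψ hψ hcent hψu
    obtain ⟨t, ht, w, hw, hwlc, hwu, -, hgen⟩ :=
      exists_tame_char hqp (n := 1) (by rwa [pow_one]) hE ψ hψ
    obtain ⟨a, ha⟩ := D.exists_ja (e := ψ (loc (q : ℕ) t)) (by rw [hlift, hu t ht])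
    let c : ZMod (p ^ 1) →+* ZMod p := ZMod.castHom (dvd_pow_self p one_ne_zero) (ZMod p)
    refine ⟨fun g => -(c (w g) * a), fun x y => by simp only [hw, map_add, add_mul, neg_add],
      hwlc.comp fun x => -(c x * a), fun r hr hrq ι hι => by
        simp only [hwu r hrq ι hι, map_zero, zero_mul, neg_zero], fun ι hι => ?_⟩
    obtain ⟨i, hi, hwi⟩ := hgen ι hι
    simp only [hwi]
    rw [hi, ← ha, D.ja_pow, map_natCast, ← D.ja_add, add_neg_cancel, D.ja_zero]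

/-- One prime at a time, at an odd prime. -/
theorem exists_twist_at (_ : p ≠ 2) (D : CExt p E G) (hE : IsPGroup p E) {f : GQ →* G}
    (hfo : IsOpen (f.ker : Set GQ)) {ψ : GQ →* E} (hψ : IsOpen (ψ.ker : Set GQ))
    (hlift : ∀ g, D.π (ψ g) = f g) (q : Nat.Primes) (hu : UnrAt f (q : ℕ)) :
    ∃ χ : GQ → ZMod p, (∀ a b, χ (a * b) = χ a + χ b) ∧ LC₁ LQ χ ∧
      (∀ (l : ℕ) [Fact l.Prime], l ≠ (q : ℕ) → ∀ ι ∈ inertL l, χ (loc l ι) = 0) ∧
      ∀ ι ∈ inertL (q : ℕ), ψ (loc (q : ℕ) ι) * D.ja (χ (loc (q : ℕ) ι)) = 1 :=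
  exists_twist_at' D hE hfo hψ hlift q hu

/-- **A lift ramified only where the given extension is.** -/
theorem exists_lift_unr (hp2 : p ≠ 2) (D : CExt p E G) (hNE : Nat.card E ∣ p ^ N) {f : GQ →* G}
    (hf : IsScholz p N f) :
    ∃ ψ : GQ →* E, IsOpen (ψ.ker : Set GQ) ∧ (∀ g, D.π (ψ g) = f g) ∧
      ∀ q : Nat.Primes, UnrAt f (q : ℕ) → UnrAt ψ (q : ℕ) := by
  classical
  have hE : IsPGroup p E := fun e => ⟨N, pow_eq_one_of_card_dvd hNE e⟩
  suffices key : ∀ T : Finset Nat.Primes, ∀ ψ : GQ →* E, IsOpen (ψ.ker : Set GQ) →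
      (∀ g, D.π (ψ g) = f g) →
      (∀ q : Nat.Primes, q ∉ T → UnrAt f (q : ℕ) → UnrAt ψ (q : ℕ)) →
      ∃ ψ : GQ →* E, IsOpen (ψ.ker : Set GQ) ∧ (∀ g, D.π (ψ g) = f g) ∧
        ∀ q : Nat.Primes, UnrAt f (q : ℕ) → UnrAt ψ (q : ℕ) by
    obtain ⟨ψ, hψ, hlift⟩ := exists_lift hp2 D hNE hf
    obtain ⟨T, hT⟩ := exists_finset_unrAt ψ hψ
    exact key T ψ hψ hlift fun q hq _ => hT q hq
  intro T
  induction T using Finset.induction_on with
  | empty => exact fun ψ hψ hl h => ⟨ψ, hψ, hl, fun q => h q (Finset.notMem_empty q)⟩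
  | insert q₀ T _ ih =>
    intro ψ hψ hlift h
    by_cases hu : UnrAt f (q₀ : ℕ)
    swap
    · exact ih ψ hψ hlift fun q hq hfq => h q (by
        rw [Finset.mem_insert, not_or]
        exact ⟨fun e => hu (e ▸ hfq), hq⟩) hfq
    obtain ⟨χ, hχ, hχlc, hχu, hχ0⟩ := exists_twist_at hp2 D hE hf.isOpen hψ hlift q₀ hu
    refine ih (D.twist ψ χ hχ) (isOpen_of_lc _ (D.twist_lc (lc_of_isOpen ψ hψ) hχ hχlc))
      (fun g => by rw [D.π_twist, hlift]) fun q hq hfq ι hι => ?_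
    rw [D.twist_apply]
    rcases eq_or_ne q q₀ with rfl | hne
    · exact hχ0 ι hι
    · rw [hχu (q : ℕ) (fun e => hne (Subtype.ext e)) ι hι, D.ja_zero, mul_one]
      exact h q (by rw [Finset.mem_insert, not_or]; exact ⟨hne, hq⟩) hfq ι hι

end Fermat.Agent.ScholzReichardt
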