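import Fermat.Agent.ScholzReichardt.Main

/-!
# The number of ramified primes of a `p`-extension

One inertia element at each prime detects every character of order `p`, so by Minkowski's theorem a
`p`-group realised by a field ramified at `S` is generated by `#S` elements.
-/

set_option autoImplicit false
set_option linter.unusedSectionVars false

noncomputable section

namespace Fermat.Agent.ScholzReichardt

open FA.GalCoh
open scoped Pointwise

variable {p : ℕ} [hp : Fact p.Prime]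

/-- An element of inertia at `q` detecting all characters of order `p`. -/
theorem exists_inertia_detecting (hp2 : p ≠ 2) (q : Nat.Primes) :
    ∃ σ : GQ, ∀ χ : GQ → ZMod p, (∀ a b, χ (a * b) = χ a + χ b) → LC₁ LQ χ → χ σ = 0 →
      ∀ ι ∈ inertL (q : ℕ), χ (loc (q : ℕ) ι) = 0 := by
  by_cases hqp : (q : ℕ) = p
  · obtain rfl : q = ⟨p, hp.out⟩ := Subtype.ext hqp
    obtain ⟨κ, -, -, -, ι₁, hι₁, hκ1, hbasis⟩ := exists_wild_basis hp2
    refine ⟨loc p ι₁, fun χ hχ hlc h0 => ?_⟩
    change ∀ ι ∈ inertL p, χ (loc p ι) = 0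
    intro ι hι
    obtain ⟨a, b, hab⟩ := hbasis (fun τ => χ (loc p τ)) (fun a b => by rw [map_mul, hχ])
      (hlc.precomp compat_loc)
    have h1 := hab ι₁
    rw [h0, unrChar_inertL hι₁, hκ1, mul_zero, zero_add, mul_one] at h1
    have h2 := hab ι
    rw [← h1, unrChar_inertL hι, mul_zero, zero_mul, zero_add] at h2
    exact h2
  · obtain ⟨s, -, hgen⟩ := FA.RT.exists_tame_gen hp.out q.2 (Ne.symm hqp)
      (liesOverPrime_padicPlace (q : ℕ))
    refine ⟨s, fun χ hχ hlc h0 ι hι => ?_⟩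
    let f : GQ →* Multiplicative (ZMod p) :=
      MonoidHom.mk' (fun g => Multiplicative.ofAdd (χ g)) fun a b => by rw [hχ, ofAdd_add]
    obtain ⟨i, hi⟩ := hgen _ f (isOpen_of_lc f (hlc.comp Multiplicative.ofAdd)) (fun σ _ =>
      ⟨1, by rw [pow_one, ← ofAdd_toAdd (f σ), ← ofAdd_nsmul, nsmul_eq_mul, ZMod.natCast_self,
        zero_mul, ofAdd_zero]⟩) (loc (q : ℕ) ι) hι
    have hs : f s = 1 := by show Multiplicative.ofAdd (χ s) = 1; rw [h0, ofAdd_zero]
    rw [hs, one_pow] at hi
    exact Multiplicative.ofAdd.injective (hi.trans ofAdd_zero.symm)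

variable {G : Type*} [Group G] [Finite G]

/-- **A `p`-group realised with ramification in `S` is generated by `#S` elements.** -/
theorem exists_generators_of_unr (hp2 : p ≠ 2) (hG : IsPGroup p G) {ρ : GQ →* G}
    (hρ : Function.Surjective ρ) (hopen : IsOpen (ρ.ker : Set GQ)) (S : Finset Nat.Primes)
    (hS : ∀ q : Nat.Primes, q ∉ S → UnrAt ρ (q : ℕ)) :
    ∃ T : Finset G, T.card ≤ S.card ∧ Subgroup.closure (T : Set G) = ⊤ := by
  classical
  choose σ hσ using exists_inertia_detecting (p := p) hp2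
  refine ⟨S.image fun q => ρ (σ q), Finset.card_image_le, ?_⟩
  by_contra hne
  obtain ⟨χ, hχ, hχ0, g, hg⟩ := exists_char_of_ne_top hG hne
  have h1 : χ 1 = 0 := add_map_one hχ
  let P : Subgroup GQ :=
    (MonoidHom.mk' (fun g => Multiplicative.ofAdd (χ (ρ g))) fun a b => by
      rw [map_mul, hχ, ofAdd_add]).ker
  have hP : ∀ x, x ∈ P ↔ χ (ρ x) = 0 := fun x => by
    show Multiplicative.ofAdd (χ (ρ x)) = 1 ↔ _
    rw [← ofAdd_zero, Multiplicative.ofAdd.injective.eq_iff]
  have hn : P.Normal := MonoidHom.normal_ker _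
  obtain ⟨F, hF, hle⟩ := mem_LQ_iff_isOpen.2 hopen
  have htop : P = ⊤ := FA.Local.eq_top_of_inertia_le P F (fun x hx => (hP x).2 (by
      rw [MonoidHom.mem_ker.1 (hle ((IntermediateField.mem_fixingSubgroup_iff F x).2 hx)), h1]))
    fun q hq => by
      have : Fact q.Prime := ⟨hq⟩
      refine ⟨_, liesOverPrime_padicPlace q, fun x hx => (hP x).2 ?_⟩
      obtain ⟨ι, hι, rfl⟩ := exists_loc_inert hx
      by_cases hqS : (⟨q, hq⟩ : Nat.Primes) ∈ S
      · exact hσ ⟨q, hq⟩ (fun x => χ (ρ x)) (fun a b => by rw [map_mul, hχ])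
          ((lc_of_isOpen ρ hopen).comp χ)
          (hχ0 _ (Subgroup.subset_closure (Finset.mem_coe.2
            (Finset.mem_image_of_mem (fun q => ρ (σ q)) hqS)))) ι hι
      · rw [show ρ (loc q ι) = 1 from hS ⟨q, hq⟩ hqS ι hι, h1]
  obtain ⟨x, rfl⟩ := hρ g
  exact hg ((hP x).1 (htop ▸ Subgroup.mem_top x))

/-- The rank is at most the number of ramified primes. -/
theorem rank_le_card_ramified (hp2 : p ≠ 2) (hG : IsPGroup p G) {ρ : GQ →* G}
    (hρ : Function.Surjective ρ) (hopen : IsOpen (ρ.ker : Set GQ)) (S : Finset Nat.Primes)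
    (hS : ∀ q : Nat.Primes, q ∉ S → UnrAt ρ (q : ℕ)) : Group.rank G ≤ S.card := by
  obtain ⟨T, hT, htop⟩ := exists_generators_of_unr hp2 hG hρ hopen S hS
  exact (Group.rank_le htop).trans hT

/-- Realised with ramification at `p` only, a `p`-group is cyclic. -/
theorem isCyclic_of_unr_outside (hp2 : p ≠ 2) (hG : IsPGroup p G) {ρ : GQ →* G}
    (hρ : Function.Surjective ρ) (hopen : IsOpen (ρ.ker : Set GQ))
    (hS : ∀ q : Nat.Primes, (q : ℕ) ≠ p → UnrAt ρ (q : ℕ)) : IsCyclic G := by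
  classical
  obtain ⟨T, hT, htop⟩ := exists_generators_of_unr hp2 hG hρ hopen {⟨p, hp.out⟩} fun q hq =>
    hS q fun h => hq (Finset.mem_singleton.2 (Subtype.ext h))
  rw [Finset.card_singleton] at hT
  rcases Finset.card_le_one_iff_subset_singleton.1 hT with ⟨x, hx⟩
  refine isCyclic_iff_exists_zpowers_eq_top.2 ⟨x, eq_top_iff.2 ?_⟩
  rw [← htop, Subgroup.zpowers_eq_closure]
  exact Subgroup.closure_mono (by exact_mod_cast hx)

/-- Every cyclic `p`-group is realised with ramification at `p` only. -/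
theorem exists_cyclic_unr_outside (hp2 : p ≠ 2) (hG : IsPGroup p G) [IsCyclic G] :
    ∃ ρ : GQ →* G, Function.Surjective ρ ∧ IsOpen (ρ.ker : Set GQ) ∧
      ∀ q : Nat.Primes, (q : ℕ) ≠ p → UnrAt ρ (q : ℕ) := by
  obtain ⟨n, hn⟩ := IsPGroup.iff_card.1 hG
  have : NeZero (p ^ (n + 1)) := ⟨pow_ne_zero _ hp.out.ne_zero⟩
  obtain ⟨l, hl⟩ := exists_cyclic_surj
    (ZMod.isCyclic_units_of_prime_pow p hp.out hp2 (n + 1)) (m := Nat.card G) (by
      rw [hn, Nat.card_eq_fintype_card, ZMod.card_units_eq_totient,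
        Nat.totient_prime_pow hp.out n.succ_pos, Nat.succ_sub_one]
      exact dvd_mul_right _ _)
  let e := zmodCyclicMulEquiv (G := G) inferInstance
  let u : (ZMod (p ^ (n + 1)))ˣ →* G := e.toMonoidHom.comp l
  refine ⟨u.comp (cycMod p (n + 1)), fun g => ?_, Subgroup.isOpen_mono (fun x hx =>
    MonoidHom.mem_ker.2 (by rw [MonoidHom.comp_apply, MonoidHom.mem_ker.1 hx, map_one]))
    (isOpen_ker_cycMod (p := p) (n + 1)), fun q hq ι hι => by
    rw [MonoidHom.comp_apply, cycMod_inertL hq (n + 1) hι, map_one]⟩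
  obtain ⟨a, rfl⟩ := e.surjective g
  obtain ⟨b, rfl⟩ := hl a
  obtain ⟨ι, -, hι⟩ := exists_inertia_cycMod_eq n.succ_pos b
  exact ⟨loc p ι, by rw [MonoidHom.comp_apply, hι]; rfl⟩

/-- An elementary abelian group of order `p ^ n` needs `n` generators. -/
theorem rank_elementary (n : ℕ) : n ≤ Group.rank (Multiplicative (Fin n → ZMod p)) := by
  classical
  obtain ⟨T, hT, htop⟩ := Group.rank_spec (Multiplicative (Fin n → ZMod p))
  rw [← hT]
  have hexp : ∀ x : Multiplicative (Fin n → ZMod p), x ^ p = 1 := fun x => by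
    refine Multiplicative.toAdd.injective (funext fun i => ?_)
    rw [toAdd_pow, toAdd_one, Pi.smul_apply, nsmul_eq_mul, ZMod.natCast_self, zero_mul]
    rfl
  let Φ : (T → Fin p) → Multiplicative (Fin n → ZMod p) := fun e => ∏ t : T, t.1 ^ (e t).val
  let K : Subgroup (Multiplicative (Fin n → ZMod p)) :=
    { carrier := Set.range fun e : T → ℕ => ∏ t : T, t.1 ^ e t
      one_mem' := ⟨0, by simp⟩
      mul_mem' := by
        rintro _ _ ⟨a, rfl⟩ ⟨b, rfl⟩
        exact ⟨a + b, by simp [pow_add, Finset.prod_mul_distrib]⟩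
      inv_mem' := by
        rintro _ ⟨a, rfl⟩
        refine ⟨(p - 1) • a, eq_inv_of_mul_eq_one_left ?_⟩
        simp only [Pi.smul_apply, smul_eq_mul, ← Finset.prod_mul_distrib, ← pow_add]
        refine Finset.prod_eq_one fun t _ => ?_
        rw [show (p - 1) * a t + a t = p * a t by
          conv_rhs => rw [← Nat.sub_add_cancel hp.out.one_le, add_mul, one_mul], pow_mul, hexp,
          one_pow] }
  have hΦ : Function.Surjective Φ := fun x => by
    have hmem : x ∈ K := (Subgroup.closure_le K).2 (fun t ht => by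
      refine ⟨Pi.single ⟨t, ht⟩ 1, ?_⟩
      simp only
      rw [Finset.prod_eq_single (⟨t, ht⟩ : T) (fun b _ hb => by simp [hb]) (by simp)]
      simp) (htop ▸ Subgroup.mem_top x)
    obtain ⟨a, rfl⟩ := hmem
    refine ⟨fun t => ⟨a t % p, Nat.mod_lt _ hp.out.pos⟩, Finset.prod_congr rfl fun t _ => ?_⟩
    exact (pow_eq_pow_mod _ (hexp _)).symm
  have h := Nat.card_le_card_of_surjective Φ hΦ
  rw [Nat.card_congr Multiplicative.toAdd, Nat.card_pi, Nat.card_pi] at h
  simp only [Nat.card_zmod, Finset.prod_const, Finset.card_univ, Fintype.card_fin,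
    Nat.card_fin, Fintype.card_coe] at h
  exact (Nat.pow_le_pow_iff_right hp.out.one_lt).1 h

end Fermat.Agent.ScholzReichardt
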