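import Fermat.Agent.ScholzReichardt.Nilpotent

/-!
# Realisations over every number field

A realisation over `ℚ` unramified where a given Galois field ramifies is linearly disjoint from it
by Minkowski's theorem, so it realises the group over that field and its subfields too.
-/

set_option autoImplicit false
set_option linter.unusedSectionVars false

noncomputable section

namespace Fermat.Agent.ScholzReichardt

open FA.GalCoh
open scoped Pointwise

local notation "Qb" => AlgebraicClosure ℚ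

/-- Disjoint ramification gives disjointness. -/
theorem exists_mem_fixing_of_disjoint {G : Type*} [Group G] {ρ : GQ →* G}
    (hρ : Function.Surjective ρ) (F : IntermediateField ℚ Qb) [FiniteDimensional ℚ F]
    (hN : F.fixingSubgroup.Normal) (h : ∀ q : Nat.Primes, UnrAt ρ (q : ℕ) ∨
      (padicPlace (q : ℕ)).inertiaSubgroupIn ℚ ≤ F.fixingSubgroup) (g : G) :
    ∃ σ ∈ F.fixingSubgroup, ρ σ = g := by
  have : (F.fixingSubgroup.map ρ).Normal := hN.map ρ hρ
  let P : Subgroup GQ := (F.fixingSubgroup.map ρ).comap ρ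
  have hP : P = ⊤ := FA.Local.eq_top_of_inertia_le P F
    (fun σ hσ => ⟨σ, (IntermediateField.mem_fixingSubgroup_iff F σ).2 hσ, rfl⟩) fun q hq => by
      have : Fact q.Prime := ⟨hq⟩
      refine ⟨_, liesOverPrime_padicPlace q, fun σ hσ => ?_⟩
      rcases h ⟨q, hq⟩ with hu | hle
      · obtain ⟨ι, hι, rfl⟩ := exists_loc_inert hσ
        refine ⟨1, one_mem _, ?_⟩
        rw [map_one]
        exact (hu ι hι).symm
      · exact ⟨σ, hle hσ, rfl⟩
  obtain ⟨σ, rfl⟩ := hρ g
  exact (hP ▸ Subgroup.mem_top σ : σ ∈ P)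

/-- A nilpotent group of odd order has a realisation surjective on the group of a given field. -/
theorem exists_surjective_on_fixing (G : Type*) [Group G] [Finite G] [Group.IsNilpotent G]
    (hodd : Odd (Nat.card G)) (F₀ : IntermediateField ℚ Qb) [FiniteDimensional ℚ F₀] :
    ∃ ρ : GQ →* G, Function.Surjective ρ ∧ IsOpen (ρ.ker : Set GQ) ∧
      ∀ g, ∃ σ ∈ F₀.fixingSubgroup, ρ σ = g := by
  classical
  obtain ⟨N, hN, hle, hn⟩ := LQ.exists_normal (fixingSubgroup_mem_fieldLevels F₀)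
  have hfix := fixingSubgroup_fixedField_LQ hN
  set F := IntermediateField.fixedField N
  have hFn : F.fixingSubgroup.Normal := hfix.symm ▸ hn
  have : FiniteDimensional ℚ F := finiteDimensional_fixedField hN
  have : IsGalois ℚ F := (InfiniteGalois.normal_iff_isGalois _).mp hFn
  obtain ⟨S, hS⟩ := FA.KroneckerWeber.exists_unramified_set F
  obtain ⟨ρ, h1, h2, h3⟩ := exists_nilpotent_avoiding G hodd (S.subtype Nat.Prime)
  refine ⟨ρ, h1, h2, fun g => ?_⟩
  have hram : ∀ q : Nat.Primes, UnrAt ρ (q : ℕ) ∨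
      (padicPlace (q : ℕ)).inertiaSubgroupIn ℚ ≤ F.fixingSubgroup := fun q => by
    by_cases hq : (q : ℕ) ∈ S
    · exact Or.inl (h3 q (Finset.mem_subtype.2 hq))
    · exact Or.inr (hS q q.2 hq _ (liesOverPrime_padicPlace _))
  obtain ⟨σ, hσ, hg⟩ := exists_mem_fixing_of_disjoint h1 F hFn hram g
  exact ⟨σ, hle (hfix ▸ hσ), hg⟩

/-- A realisation disjoint from a given field. -/
theorem exists_field_disjoint (G : Type*) [Group G] [Finite G] [Group.IsNilpotent G]
    (hodd : Odd (Nat.card G)) (F : IntermediateField ℚ Qb) [FiniteDimensional ℚ F] :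
    ∃ K : IntermediateField ℚ Qb, FiniteDimensional ℚ K ∧ IsGalois ℚ K ∧
      Nonempty ((K ≃ₐ[ℚ] K) ≃* G) ∧ K ⊓ F = ⊥ := by
  obtain ⟨ρ, hρ, hopen, hon⟩ := exists_surjective_on_fixing G hodd F
  obtain ⟨K, hK, hgal, he, hiff⟩ :=
    FA.AbelianInverseGalois.exists_field_of_surjective ρ hρ hopen
  refine ⟨K, hK, hgal, he, eq_bot_iff.2 fun x hx => ?_⟩
  obtain ⟨hxK, hxF⟩ := IntermediateField.mem_inf.1 hx
  rw [← InfiniteGalois.fixedField_fixingSubgroup (⊥ : IntermediateField ℚ Qb)]
  refine (IntermediateField.mem_fixedField_iff _ _).2 fun σ _ => ?_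
  obtain ⟨τ, hτ, hτσ⟩ := hon (ρ σ)
  have h1 : (τ⁻¹ * σ) x = x := (hiff _).2 (by rw [map_mul, map_inv, hτσ, inv_mul_cancel]) x hxK
  have h2 : τ x = x := (IntermediateField.mem_fixingSubgroup_iff _ _).1 hτ x hxF
  rw [← mul_inv_cancel_left τ σ, AlgEquiv.mul_apply, h1, h2]

/-- Pairwise disjoint realisations. -/
theorem exists_disjoint_seq (G : Type*) [Group G] [Finite G] [Group.IsNilpotent G]
    (hodd : Odd (Nat.card G)) :
    ∃ K : ℕ → IntermediateField ℚ Qb, (∀ n, FiniteDimensional ℚ (K n) ∧ IsGalois ℚ (K n) ∧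
      Nonempty ((K n ≃ₐ[ℚ] K n) ≃* G)) ∧ ∀ m n, m ≠ n → K m ⊓ K n = ⊥ := by
  classical
  let T := {F : IntermediateField ℚ Qb // FiniteDimensional ℚ F}
  have hex : ∀ F : T, ∃ K : T, IsGalois ℚ K.1 ∧ Nonempty ((K.1 ≃ₐ[ℚ] K.1) ≃* G) ∧
      K.1 ⊓ F.1 = ⊥ := fun F => by
    have := F.2
    obtain ⟨K, h1, h2, h3, h4⟩ := exists_field_disjoint G hodd F.1
    exact ⟨⟨K, h1⟩, h2, h3, h4⟩
  choose k hk using hex
  let step : T → T := fun F =>
    ⟨F.1 ⊔ (k F).1, by have := F.2; have := (k F).2; infer_instance⟩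
  let F : ℕ → T := fun n => step^[n] ⟨⊥, inferInstance⟩
  have hF : ∀ n, (F (n + 1)).1 = (F n).1 ⊔ (k (F n)).1 := fun n => by
    simp only [F, Function.iterate_succ_apply', step]
  have hmono : Monotone fun n => (F n).1 :=
    monotone_nat_of_le_succ fun n => (hF n).symm ▸ le_sup_left
  have key : ∀ m n, m < n → (k (F m)).1 ⊓ (k (F n)).1 = ⊥ := fun m n h => by
    have hle : (k (F m)).1 ≤ (F n).1 :=
      (le_sup_right.trans (hF m).ge).trans (hmono h)
    refine eq_bot_iff.2 ((le_inf inf_le_right (inf_le_left.trans hle)).trans ?_)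
    rw [(hk (F n)).2.2]
  refine ⟨fun n => (k (F n)).1, fun n => ⟨(k (F n)).2, (hk _).1, (hk _).2.1⟩, fun m n h => ?_⟩
  rcases lt_or_gt_of_ne h with hlt | hgt
  · exact key m n hlt
  · rw [inf_comm]
    exact key n m hgt

/-- A surjection of the group of `K` with open kernel gives a field. -/
theorem exists_field_of_surjective_over {K : Type*} [Field K] {Ω : Type*} [Field Ω] [Algebra K Ω]
    [IsGalois K Ω] {G : Type*} [Group G] (ρ : (Ω ≃ₐ[K] Ω) →* G) (hρ : Function.Surjective ρ)
    (hopen : IsOpen (ρ.ker : Set (Ω ≃ₐ[K] Ω))) :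
    ∃ L : IntermediateField K Ω, FiniteDimensional K L ∧ IsGalois K L ∧
      Nonempty ((L ≃ₐ[K] L) ≃* G) := by
  let H : ClosedSubgroup (Ω ≃ₐ[K] Ω) := ⟨ρ.ker, Subgroup.isClosed_of_isOpen _ hopen⟩
  have : H.Normal := ρ.normal_ker
  obtain ⟨hfin, hgal⟩ :=
    (InfiniteGalois.isOpen_and_normal_iff_finite_and_isGalois (IntermediateField.fixedField H.1)).mp
      (by rw [InfiniteGalois.fixingSubgroup_fixedField H]; exact ⟨hopen, ρ.normal_ker⟩)
  exact ⟨IntermediateField.fixedField H.1, hfin, hgal,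
    ⟨(InfiniteGalois.normalAutEquivQuotient H).symm.trans
      (QuotientGroup.quotientKerEquivOfSurjective ρ hρ)⟩⟩

/-- **Nilpotent groups of odd order are Galois groups over every number field.** -/
theorem exists_galois_over_numberField (K : Type*) [Field K] [NumberField K] (G : Type*) [Group G]
    [Finite G] [Group.IsNilpotent G] (hodd : Odd (Nat.card G)) :
    ∃ L : IntermediateField K (AlgebraicClosure K), FiniteDimensional K L ∧ IsGalois K L ∧
      Nonempty ((L ≃ₐ[K] L) ≃* G) := by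
  classical
  let i : K →ₐ[ℚ] Qb := IsAlgClosed.lift
  let _ : Algebra K Qb := i.toRingHom.toAlgebra
  have : IsScalarTower ℚ K Qb := IsScalarTower.of_algebraMap_eq' (Subsingleton.elim _ _)
  have halg : Algebra.IsAlgebraic K Qb := Algebra.IsAlgebraic.tower_top (K := ℚ) K
  have : IsAlgClosure K Qb := ⟨inferInstance, halg⟩
  have : Normal K Qb := IsAlgClosure.normal K Qb
  have : IsGalois K Qb := ⟨⟩
  let r : (Qb ≃ₐ[K] Qb) →* GQ :=
    MonoidHom.mk' (fun σ => σ.restrictScalars ℚ) fun _ _ => rfl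
  have : FiniteDimensional ℚ i.fieldRange :=
    (AlgEquiv.ofInjectiveField i).toLinearEquiv.finiteDimensional
  obtain ⟨ρ, hρ, hopen, hon⟩ := exists_surjective_on_fixing G hodd i.fieldRange
  have hsurj : Function.Surjective (ρ.comp r) := fun g => by
    obtain ⟨σ, hσ, rfl⟩ := hon g
    have hfix : ∀ x : K, σ.toRingEquiv (algebraMap K Qb x) = algebraMap K Qb x := fun x =>
      (IntermediateField.mem_fixingSubgroup_iff _ _).1 hσ _ ⟨x, rfl⟩
    exact ⟨AlgEquiv.ofRingEquiv hfix, congrArg ρ (AlgEquiv.ext fun _ => rfl)⟩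
  have hopen' : IsOpen ((ρ.comp r).ker : Set (Qb ≃ₐ[K] Qb)) := by
    obtain ⟨E, hE, hle⟩ := mem_LQ_iff_isOpen.2 hopen
    let b := Module.finBasis ℚ E
    have : FiniteDimensional K
        (IntermediateField.adjoin K (Set.range fun j => ((b j : E) : Qb))) :=
      IntermediateField.finiteDimensional_adjoin fun x _ =>
        (Algebra.IsAlgebraic.isAlgebraic (R := K) x).isIntegral
    refine Subgroup.isOpen_mono (H₁ := (IntermediateField.adjoin K
      (Set.range fun j => ((b j : E) : Qb))).fixingSubgroup) (fun σ hσ => hle ?_)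
      (IntermediateField.fixingSubgroup_isOpen _)
    refine (IntermediateField.mem_fixingSubgroup_iff _ _).2 fun x hx => ?_
    show σ x = x
    rw [show x = ((⟨x, hx⟩ : E) : Qb) from rfl, ← b.sum_repr ⟨x, hx⟩, IntermediateField.coe_sum,
      map_sum]
    refine Finset.sum_congr rfl fun j _ => ?_
    rw [IntermediateField.coe_smul, Algebra.smul_def, map_mul,
      IsScalarTower.algebraMap_apply ℚ K Qb, σ.commutes,
      (IntermediateField.mem_fixingSubgroup_iff _ _).1 hσ _
        (IntermediateField.subset_adjoin K _ ⟨j, rfl⟩)]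
  obtain ⟨L, hL, hgal, ⟨e⟩⟩ := exists_field_of_surjective_over (ρ.comp r) hsurj hopen'
  let φ : Qb ≃ₐ[K] AlgebraicClosure K := IsAlgClosure.equiv K Qb (AlgebraicClosure K)
  let eL : L ≃ₐ[K] L.map φ.toAlgHom := IntermediateField.equivMap L φ.toAlgHom
  exact ⟨L.map φ.toAlgHom, eL.toLinearEquiv.finiteDimensional, IsGalois.of_algEquiv eL,
    ⟨eL.autCongr.symm.trans e⟩⟩

end Fermat.Agent.ScholzReichardt
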