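import Fermat.Agent.ScholzReichardt.Basic
import Fermat.Agent.Root.SummarySurjectivePow

/-!
# Cyclotomic characters matching given ramification

At `q ≠ p` the `p`-part of inertia is cyclic, so a character of `ℚ(μ_q)` follows any homomorphism
into a `p`-group there. At `p` the characters of order `p` of the decomposition group form a plane,
spanned by the unramified one and the cyclotomic one.
-/

set_option autoImplicit false
set_option linter.unusedSectionVars false

noncomputable section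

namespace Fermat.Agent.ScholzReichardt

open FA.GalCoh FA.KroneckerWeber
open FA.JTorsion (cycP)
open scoped Pointwise

variable {p : ℕ} [hp : Fact p.Prime]

theorem exists_cyclic_surj {C : Type} [CommGroup C] [Finite C] (hC : IsCyclic C) {m : ℕ}
    (h : m ∣ Nat.card C) : ∃ l : C →* Multiplicative (ZMod m), Function.Surjective l :=
  ⟨(AddMonoidHom.toMultiplicative (ZMod.castHom h (ZMod m)).toAddMonoidHom).comp
      (zmodCyclicMulEquiv hC).symm.toMonoidHom,
    fun a => by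
      obtain ⟨b, hb⟩ := ZMod.castHom_surjective h (Multiplicative.toAdd a)
      obtain ⟨c, hc⟩ := (zmodCyclicMulEquiv hC).symm.surjective (Multiplicative.ofAdd b)
      refine ⟨c, ?_⟩
      rw [MonoidHom.comp_apply, MulEquiv.coe_toMonoidHom, hc]
      exact congrArg Multiplicative.ofAdd hb⟩

/-- A character of `ℚ(μ_q)` following a homomorphism into a `p`-group on inertia at `q`. -/
theorem exists_tame_char {q : ℕ} [hq : Fact q.Prime] (hqp : q ≠ p) {n : ℕ} (hn : p ^ n ∣ q - 1)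
    {X : Type} [Group X] (hX : IsPGroup p X) (f : GQ →* X) (hf : IsOpen (f.ker : Set GQ)) :
    ∃ t ∈ inertL q, ∃ w : GQ → ZMod (p ^ n), (∀ a b, w (a * b) = w a + w b) ∧ LC₁ LQ w ∧
      (∀ (l : ℕ) [Fact l.Prime], l ≠ q → ∀ ι ∈ inertL l, w (loc l ι) = 0) ∧ w (loc q t) = 1 ∧
      ∀ ι ∈ inertL q, ∃ i : ℕ, f (loc q ι) = f (loc q t) ^ i ∧ w (loc q ι) = i := by
  have : NeZero (p ^ n) := ⟨pow_ne_zero _ hp.out.ne_zero⟩
  have : NeZero (q ^ 1) := ⟨pow_ne_zero _ hq.out.ne_zero⟩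
  have hcyc : IsCyclic (ZMod (q ^ 1))ˣ := by
    rw [pow_one]; exact ZMod.isCyclic_units_prime hq.out
  obtain ⟨l, hl⟩ := exists_cyclic_surj hcyc (m := p ^ n) (by
    rwa [Nat.card_eq_fintype_card, ZMod.card_units_eq_totient, pow_one, Nat.totient_prime hq.out])
  let κ : GQ →* Multiplicative (ZMod (p ^ n)) := l.comp (omega q)
  have hκo : IsOpen (κ.ker : Set GQ) := Subgroup.isOpen_mono (fun σ hσ => MonoidHom.mem_ker.2 (by
    show l (omega q σ) = 1
    rw [MonoidHom.mem_ker.1 hσ, map_one])) (isOpen_ker_omega q)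
  have hA := liesOverPrime_padicPlace q
  obtain ⟨s, hs, hgen⟩ := FA.RT.exists_tame_gen hp.out hq.out hqp.symm hA
  have hjoint : ∀ σ ∈ (padicPlace q).inertiaSubgroupIn ℚ,
      ∃ i : ℕ, f σ = f s ^ i ∧ κ σ = κ s ^ i := by
    intro σ hσ
    obtain ⟨i, hi⟩ := hgen _ (f.prod κ) (by
      rw [MonoidHom.ker_prod, Subgroup.coe_inf]; exact hf.inter hκo) (fun τ _ => by
      obtain ⟨k, hk⟩ := hX (f τ)
      refine ⟨k + n, Prod.ext ?_ ?_⟩
      · show f τ ^ p ^ (k + n) = 1
        rw [pow_add, pow_mul, hk, one_pow]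
      · show κ τ ^ p ^ (k + n) = 1
        rw [← ofAdd_toAdd (κ τ), ← ofAdd_nsmul, nsmul_eq_mul, pow_add, Nat.cast_mul,
          ZMod.natCast_self, mul_zero, zero_mul, ofAdd_zero]) σ hσ
    exact ⟨i, congrArg Prod.fst hi, congrArg Prod.snd hi⟩
  obtain ⟨u, hu⟩ := hl (Multiplicative.ofAdd 1)
  obtain ⟨σ₁, hσ₁, hσ₁u⟩ := exists_inertia_omega_eq q hA u
  obtain ⟨i, -, hi⟩ := hjoint σ₁ hσ₁
  have h1 : (i : ZMod (p ^ n)) * Multiplicative.toAdd (κ s) = 1 := by
    rw [← nsmul_eq_mul, ← toAdd_pow, ← hi]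
    show Multiplicative.toAdd (l (omega q σ₁)) = 1
    rw [hσ₁u, hu, toAdd_ofAdd]
  obtain ⟨t, ht, rfl⟩ := exists_loc_inert hs
  refine ⟨t, ht, fun g => (i : ZMod (p ^ n)) * Multiplicative.toAdd (κ g),
    fun a b => by
      show _ * Multiplicative.toAdd (κ (a * b)) = _
      rw [map_mul, toAdd_mul, mul_add],
    (lc_of_isOpen κ hκo).comp fun x => (i : ZMod (p ^ n)) * Multiplicative.toAdd x,
    fun r hr hrq ι hι => ?_, h1, fun ι hι => ?_⟩
  · show _ * Multiplicative.toAdd (l (omega q (loc r ι))) = 0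
    rw [omega_inertia q hr.out hrq (liesOverPrime_padicPlace r) hι, map_one, toAdd_one, mul_zero]
  · obtain ⟨j, hj, hjκ⟩ := hjoint (loc q ι) hι
    refine ⟨j, hj, ?_⟩
    show _ * Multiplicative.toAdd (κ (loc q ι)) = _
    rw [hjκ, toAdd_pow, nsmul_eq_mul, mul_left_comm, h1, mul_one]

/-- Central ramification at `q ≠ p` forces `q ≡ 1` modulo `p`. -/
theorem dvd_sub_one_of_central {q : ℕ} [hq : Fact q.Prime] (hqp : q ≠ p) {X : Type} [Group X]
    (hX : IsPGroup p X) (f : GQ →* X) (hf : IsOpen (f.ker : Set GQ))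
    (hc : ∀ ι ∈ inertL q, ∀ x, Commute (f (loc q ι)) x) (hne : ¬ UnrAt f q) : p ∣ q - 1 := by
  simp only [UnrAt, not_forall] at hne
  obtain ⟨ι, hι, hne⟩ := hne
  have h := FA.RT.tame_relation f hp.out hq.out hqp.symm (liesOverPrime_padicPlace q) hf
    (fun σ _ => hX (f σ)) (frobL_spec q) (s := loc q ι) hι
  rw [← (hc ι hι _).eq, mul_left_inj] at h
  have h1 : f (loc q ι) ^ (q - 1) = 1 := by
    refine mul_right_cancel (b := f (loc q ι)) ?_
    rw [← pow_succ, Nat.sub_add_cancel hq.out.one_le, one_mul, ← h]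
  obtain ⟨k, hk⟩ := hX (f (loc q ι))
  obtain ⟨m, -, hm⟩ := (Nat.dvd_prime_pow hp.out).1 (orderOf_dvd_of_pow_eq_one hk)
  have hm0 : m ≠ 0 := fun h0 => hne (by rwa [h0, pow_zero, orderOf_eq_one_iff] at hm)
  exact ((dvd_pow_self p hm0).trans hm.symm.dvd).trans (orderOf_dvd_of_pow_eq_one h1)

/-! ### At `p` -/

variable (p) in
/-- The cyclotomic character modulo `p ^ n`. -/
def cycMod (n : ℕ) : GQ →* (ZMod (p ^ n))ˣ :=
  (Units.map ((PadicInt.toZModPow n).toMonoidHom : ℤ_[p] →* _)).comp (cycP p)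

theorem cycMod_eq_natCast {n : ℕ} {σ : GQ} {a : ℕ}
    (h : ∀ μ : AlgebraicClosure ℚ, μ ^ p ^ n = 1 → σ μ = μ ^ a) :
    ((cycMod p n σ : (ZMod (p ^ n))ˣ) : ZMod (p ^ n)) = a :=
  FA.RT.Tate.cycP_eq_natCast h

theorem exists_field_cycMod (n : ℕ) :
    ∃ L : IntermediateField ℚ (AlgebraicClosure ℚ), FiniteDimensional ℚ L ∧
      ∀ σ : GQ, (∀ a ∈ L, σ a = a) → cycMod p n σ = 1 := by
  obtain ⟨L, hL, h⟩ := FA.JTorsion.exists_field_cycP p n
  exact ⟨L, hL, fun σ hσ => Units.ext (h σ hσ)⟩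

theorem isOpen_ker_cycMod (n : ℕ) : IsOpen ((cycMod p n).ker : Set GQ) := by
  obtain ⟨L, hL, h⟩ := exists_field_cycMod (p := p) n
  exact Subgroup.isOpen_mono (H₁ := L.fixingSubgroup) (fun σ hσ => MonoidHom.mem_ker.2
    (h σ fun a ha => (IntermediateField.mem_fixingSubgroup_iff L σ).1 hσ a ha))
    (IntermediateField.fixingSubgroup_isOpen L)

theorem cycMod_inertL {l : ℕ} [hl : Fact l.Prime] (hlp : l ≠ p) (n : ℕ) {ι : LG l}
    (hι : ι ∈ inertL l) : cycMod p n (loc l ι) = 1 := by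
  show Units.map _ (cycP p (loc l ι)) = 1
  rw [FA.JTorsion.cycP_inertia p hl.out hlp (liesOverPrime_padicPlace l) hι, map_one]

/-- Inertia at `p` acts on `p ^ n`-th roots of unity by every unit. -/
theorem exists_inertia_cycMod_eq {n : ℕ} (hn : 0 < n) (u : (ZMod (p ^ n))ˣ) :
    ∃ ι ∈ inertL p, cycMod p n (loc p ι) = u := by
  let H : Subgroup GQ :=
    (((padicPlace p).inertiaSubgroupIn ℚ).map (cycMod p n)).comap (cycMod p n)
  obtain ⟨L, hL, hfix⟩ := exists_field_cycMod (p := p) n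
  have := hL
  have hH : H = ⊤ := FA.Local.eq_top_of_inertia_le H L
    (fun σ hσ => Subgroup.mem_comap.2 (by rw [hfix σ hσ]; exact one_mem _)) fun l hl => by
      rcases eq_or_ne l p with rfl | hlp
      · exact ⟨_, liesOverPrime_padicPlace l,
          fun σ hσ => Subgroup.mem_comap.2 (Subgroup.mem_map_of_mem _ hσ)⟩
      · have := Fact.mk hl
        refine ⟨_, liesOverPrime_padicPlace l, fun σ hσ => Subgroup.mem_comap.2 ?_⟩
        obtain ⟨ι, hι, rfl⟩ := exists_loc_inert hσ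
        rw [cycMod_inertL hlp n hι]
        exact one_mem _
  have : NeZero (p ^ n) := ⟨pow_ne_zero _ hp.out.ne_zero⟩
  obtain ⟨σ, hσ⟩ := FA.PadicImage.exists_cyclotomic_action_pow (p := p) n
    (a := (u : ZMod (p ^ n)).val) fun hd => by
      have hcop : ((u : ZMod (p ^ n)).val).Coprime p :=
        (ZMod.val_coe_unit_coprime u).coprime_dvd_right (dvd_pow_self p hn.ne')
      exact hp.out.one_lt.ne' (Nat.dvd_one.1 (hcop.gcd_eq_one ▸ Nat.dvd_gcd hd dvd_rfl))
  obtain ⟨τ, hτ, hτσ⟩ := Subgroup.mem_comap.1 (hH ▸ Subgroup.mem_top σ : σ ∈ H)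
  obtain ⟨ι, hι, rfl⟩ := exists_loc_inert hτ
  refine ⟨ι, hι, hτσ.trans (Units.ext ?_)⟩
  rw [cycMod_eq_natCast hσ, ZMod.natCast_zmod_val]

variable (p) in
/-- The trivial module with the roots of unity as partner. -/
def trivPair : DPair LQ (cycQ p).χ (triv GQ p) (chr (cycQ p).χ) where
  β := LinearMap.mul (ZMod p) (ZMod p)
  bil g v w := by
    show v * (((cycQ p).χ g : ZMod p) * w) = ((cycQ p).χ g : ZMod p) * (v * w)
    rw [mul_left_comm]
  inj_left a b h := by simpa using LinearMap.congr_fun h 1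
  inj_right a b h := by simpa using LinearMap.congr_fun h 1
  fin_left := inferInstance
  fin_right := inferInstance
  smooth_left := smooth_triv
  smooth_right := (cycQ p).smooth_chr

/-- The roots of unity of order `p` are not rational over `ℚ_p`. -/
theorem invariants_chr_loc_eq_bot (hp2 : p ≠ 2) :
    Representation.invariants ((chr (cycQ p).χ).comp (loc p)) = ⊥ := by
  refine eq_bot_iff.2 fun v hv => ?_
  have : NeZero (p ^ 1) := ⟨pow_ne_zero _ hp.out.ne_zero⟩
  obtain ⟨c, hc⟩ : ∃ c : (ZMod (p ^ 1))ˣ, ((c : ZMod (p ^ 1))).val = 2 := by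
    have h2 : 2 < p ^ 1 := by have := hp.out.two_le; rw [pow_one]; omega
    refine ⟨ZMod.unitOfCoprime 2 ?_, ?_⟩
    · rw [pow_one]
      exact (Nat.coprime_primes Nat.prime_two hp.out).2 hp2.symm
    · rw [ZMod.coe_unitOfCoprime, ZMod.val_natCast_of_lt h2]
  obtain ⟨σ, hσ, hσc⟩ := exists_inertia_omega_eq p (liesOverPrime_padicPlace p) c
  obtain ⟨ι, -, rfl⟩ := exists_loc_inert hσ
  have hv' : ((cycQ p).χ (loc p ι) : ZMod p) * v = v := hv ι
  have hne : ((cycQ p).χ (loc p ι) : ZMod p) ≠ 1 := by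
    intro h1
    have hfix : loc p ι (zetaQ p) = zetaQ p := by
      rw [apply_zetaQ, show (ExtCitation.cycloChar p (loc p ι) : ZMod p) = 1 from h1,
        ZMod.val_one, pow_one]
    have h2 : omega p (loc p ι) = 1 := omega_eq_one p fun μ hμ => by
      have : NeZero p := ⟨hp.out.ne_zero⟩
      obtain ⟨i, -, rfl⟩ := (zetaQ_spec (p := p)).eq_pow_of_pow_eq_one hμ
      rw [map_pow, hfix]
    rw [h2] at hσc
    rw [← hσc, Units.val_one] at hc
    have : Fact (1 < p ^ 1) := ⟨by rw [pow_one]; exact hp.out.one_lt⟩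
    rw [ZMod.val_one] at hc
    omega
  rw [Submodule.mem_bot]
  by_contra hv0
  exact hne (mul_right_cancel₀ hv0 (hv'.trans (one_mul v).symm))

/-- **Characters of order `p` of the decomposition group at `p`**: they form a plane spanned by
the unramified one and a cyclotomic one. -/
theorem exists_wild_basis (hp2 : p ≠ 2) :
    ∃ κ : GQ → ZMod p, (∀ a b, κ (a * b) = κ a + κ b) ∧ LC₁ LQ κ ∧
      (∀ (l : ℕ) [Fact l.Prime], l ≠ p → ∀ ι ∈ inertL l, κ (loc l ι) = 0) ∧
      ∃ ι₁ ∈ inertL p, κ (loc p ι₁) = 1 ∧ ∀ d : LG p → ZMod p,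
        (∀ a b, d (a * b) = d a + d b) → LC₁ (LL p) d →
          ∃ a b, ∀ τ, d τ = a * unrChar p τ + b * κ (loc p τ) := by
  have : NeZero (p ^ 2) := ⟨pow_ne_zero _ hp.out.ne_zero⟩
  obtain ⟨l, hl⟩ := exists_cyclic_surj (ZMod.isCyclic_units_of_prime_pow p hp.out hp2 2) (m := p)
    (by
      rw [Nat.card_eq_fintype_card, ZMod.card_units_eq_totient,
        Nat.totient_prime_pow hp.out two_pos]
      exact (dvd_pow_self p (by norm_num)).mul_right _)
  let κ : GQ → ZMod p := fun g => Multiplicative.toAdd (l (cycMod p 2 g))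
  have hκ : ∀ a b, κ (a * b) = κ a + κ b := fun a b => by
    show Multiplicative.toAdd _ = _
    rw [map_mul, map_mul, toAdd_mul]
  have hκlc : LC₁ LQ κ :=
    (lc_of_isOpen _ (isOpen_ker_cycMod (p := p) 2)).comp fun u => Multiplicative.toAdd (l u)
  obtain ⟨u, hu⟩ := hl (Multiplicative.ofAdd 1)
  obtain ⟨ι₁, hι₁, h₁⟩ := exists_inertia_cycMod_eq two_pos u
  have hκ1 : κ (loc p ι₁) = 1 := by
    show Multiplicative.toAdd (l (cycMod p 2 (loc p ι₁))) = 1
    rw [h₁, hu, toAdd_ofAdd]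
  -- the plane of local characters
  let P := trivPair p
  have hfin := (perfectQ p P).fin1
  have hdim : Module.finrank (ZMod p) (H1 (LL p) ((triv GQ p).comp (loc p))) = 2 := by
    have h := sum_finrank_H1 P hp2 (S := {(⟨p, hp.out⟩ : Nat.Primes)})
      (Finset.mem_singleton_self _) (fun q _ ι _ => rfl)
    have hinv : Representation.invariants ((triv GQ p).comp (loc p)) = ⊤ :=
      eq_top_iff.2 fun v _ g => rfl
    have hinv' := invariants_chr_loc_eq_bot hp2
    let _ : Unique {q // q ∈ ({(⟨p, hp.out⟩ : Nat.Primes)} : Finset Nat.Primes)} :=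
      ⟨⟨⟨_, Finset.mem_singleton_self _⟩⟩, fun q => Subtype.ext (Finset.mem_singleton.1 q.2)⟩
    rw [Fintype.sum_unique, Fintype.sum_unique, Fintype.sum_unique] at h
    change Module.finrank (ZMod p) (H1 (LL p) ((triv GQ p).comp (loc p))) = _ +
      Module.finrank (ZMod p) ↥(Representation.invariants ((triv GQ p).comp (loc p))) +
      Module.finrank (ZMod p) ↥(Representation.invariants ((chr (cycQ p).χ).comp (loc p))) at h
    rw [hinv, hinv', finrank_top, finrank_bot, Module.finrank_self] at h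
    exact h
  have hmem : ∀ c : LG p → ZMod p, (∀ a b, c (a * b) = c a + c b) → LC₁ (LL p) c →
      c ∈ Z1 (LL p) ((triv GQ p).comp (loc p)) :=
    fun c hc hclc => ⟨hclc, fun g h => by rw [hc, add_comm]; rfl⟩
  let e₁ : ↥(Z1 (LL p) ((triv GQ p).comp (loc p))) := ⟨_, hmem _ unrChar_mul unrChar_lc⟩
  let e₂ : ↥(Z1 (LL p) ((triv GQ p).comp (loc p))) :=
    ⟨_, hmem (fun τ => κ (loc p τ)) (fun a b => by rw [map_mul, hκ]) (hκlc.precomp compat_loc)⟩
  let Φ : (ZMod p × ZMod p) →ₗ[ZMod p] H1 (LL p) ((triv GQ p).comp (loc p)) :=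
    (mk1 _ _).comp ((LinearMap.toSpanSingleton _ _ e₁).coprod (LinearMap.toSpanSingleton _ _ e₂))
  have hinj0 : ∀ x : ↥(Z1 (LL p) ((triv GQ p).comp (loc p))),
      mk1 (LL p) ((triv GQ p).comp (loc p)) x = 0 → x = 0 := fun x hx => by
    obtain ⟨v, hv⟩ := (mk1_eq_zero _ _ x).1 hx
    refine Subtype.ext (funext fun g => ?_)
    rw [← hv]
    exact sub_self v
  have hΦ : Function.Injective Φ := by
    refine (injective_iff_map_eq_zero _).2 fun ab hab => ?_
    obtain ⟨a, b⟩ := ab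
    have h := congrArg Subtype.val (hinj0 _ hab)
    have hI := congrFun h ι₁
    have hF := congrFun h (frobL p)
    change a * unrChar p ι₁ + b * κ (loc p ι₁) = 0 at hI
    change a * unrChar p (frobL p) + b * κ (loc p (frobL p)) = 0 at hF
    rw [unrChar_inertL hι₁, hκ1, mul_zero, zero_add, mul_one] at hI
    rw [hI, zero_mul, add_zero, unrChar_frobL, mul_one] at hF
    rw [hI, hF]; rfl
  refine ⟨κ, hκ, hκlc, fun r hr hrp ι hι => ?_, ι₁, hι₁, hκ1, fun d hd hlc => ?_⟩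
  · show Multiplicative.toAdd (l (cycMod p 2 (loc r ι))) = 0
    rw [cycMod_inertL hrp 2 hι, map_one, toAdd_one]
  obtain ⟨⟨a, b⟩, hab⟩ := ((LinearMap.injective_iff_surjective_of_finrank_eq_finrank (by
    rw [hdim, Module.finrank_prod, Module.finrank_self])).1 hΦ)
      (mk1 (LL p) ((triv GQ p).comp (loc p)) ⟨d, hmem d hd hlc⟩)
  refine ⟨a, b, fun τ => ?_⟩
  have h := congrArg Subtype.val (hinj0 _ (show
      mk1 (LL p) ((triv GQ p).comp (loc p)) (_ - _) = 0 from by
    rw [map_sub]; exact sub_eq_zero.2 hab))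
  have hI := congrFun h τ
  change a * unrChar p τ + b * κ (loc p τ) - d τ = 0 at hI
  exact (sub_eq_zero.1 hI).symm

/-- On inertia a local character extends to a character of `G_ℚ` unramified away from `p`. -/
theorem exists_wild_char (hp2 : p ≠ 2) (d : LG p → ZMod p) (hd : ∀ a b, d (a * b) = d a + d b)
    (hlc : LC₁ (LL p) d) :
    ∃ χ : GQ → ZMod p, (∀ a b, χ (a * b) = χ a + χ b) ∧ LC₁ LQ χ ∧
      (∀ (l : ℕ) [Fact l.Prime], l ≠ p → ∀ ι ∈ inertL l, χ (loc l ι) = 0) ∧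
      ∀ ι ∈ inertL p, χ (loc p ι) = d ι := by
  obtain ⟨κ, hκ, hκlc, hκu, -, -, -, hbasis⟩ := exists_wild_basis hp2
  obtain ⟨a, b, hab⟩ := hbasis d hd hlc
  exact ⟨fun g => b * κ g, fun x y => by show b * κ (x * y) = _; rw [hκ, mul_add],
    hκlc.comp (b * ·), fun r hr hrp ι hι => by
      show b * κ (loc r ι) = 0
      rw [hκu r hrp ι hι, mul_zero],
    fun ι hι => by rw [hab, unrChar_inertL hι, mul_zero, zero_add]⟩

end Fermat.Agent.ScholzReichardt
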