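import Fermat.Agent.ScholzReichardt.Basic

/-!
# The auxiliary prime of a Scholz step

A commutator with complex conjugation has prescribed Kummer exponents and is trivial in every
`p`-group and on the `p ^ N`-th roots of unity, so Chebotarev gives a prime `l ≡ 1` modulo `p ^ N`,
split in a given `p`-extension, with prescribed `p`-th power residue symbols of finitely many
primes up to a common scalar.
-/

set_option autoImplicit false
set_option linter.unusedSectionVars false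

noncomputable section

namespace Fermat.Agent.ScholzReichardt

open FA.GalCoh
open scoped Pointwise

variable {p : ℕ} [hp : Fact p.Prime]

/-- Distinct primes are independent modulo `p`-th powers. -/
theorem dvd_of_pow_eq_prod (R : Finset Nat.Primes) (n : R → ℕ) {r : ℚ}
    (h : r ^ p = ∏ q : R, ((q.1 : ℕ) : ℚ) ^ n q) (q : R) : (n q : ZMod p) = 0 := by
  classical
  have : Fact ((q.1 : ℕ)).Prime := ⟨q.1.2⟩
  have hne : ∀ q' : R, ((q'.1 : ℕ) : ℚ) ^ n q' ≠ 0 := fun q' =>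
    pow_ne_zero _ (Nat.cast_ne_zero.2 q'.1.2.ne_zero)
  have e := congrArg (padicValRat (q.1 : ℕ)) h
  have hsum : ∀ s : Finset R, padicValRat (q.1 : ℕ) (∏ q' ∈ s, ((q'.1 : ℕ) : ℚ) ^ n q')
      = ∑ q' ∈ s, (n q' : ℤ) * padicValRat (q.1 : ℕ) ((q'.1 : ℕ) : ℚ) := by
    intro s
    induction s using Finset.induction_on with
    | empty => simp
    | insert b s hb ih =>
      rw [Finset.prod_insert hb, Finset.sum_insert hb,
        padicValRat.mul (hne b) (Finset.prod_ne_zero_iff.2 fun q' _ => hne q'), padicValRat.pow, ih]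
  rw [padicValRat.pow, hsum, Finset.sum_eq_single q (fun q' _ hne' => by
    have : Fact ((q'.1 : ℕ)).Prime := ⟨q'.1.2⟩
    rw [padicValRat.of_nat, padicValNat_primes
      (fun h => hne' (Subtype.ext (Subtype.ext h.symm))), Nat.cast_zero, mul_zero])
    (fun h => absurd (Finset.mem_univ _) h), padicValRat.self q.1.2.one_lt, mul_one] at e
  rw [← Int.cast_natCast, ← e, Int.cast_mul, Int.cast_natCast, ZMod.natCast_self, zero_mul]

/-- A rational prime as a fixed element. -/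
abbrev primeUM (r : Nat.Primes) : fixUM GQ (AlgebraicClosure ℚ) :=
  intUM ((r : ℕ) : ℤ) (Int.natCast_ne_zero.2 r.2.ne_zero)

/-- **The auxiliary prime.** -/
theorem exists_split_prime (hp2 : p ≠ 2) (N : ℕ) {X : Type} [Group X] (hX : IsPGroup p X)
    (ψ : GQ →* X) (hψ : IsOpen (ψ.ker : Set GQ)) (R T : Finset Nat.Primes)
    (a : Nat.Primes → ZMod p) {r₀ : Nat.Primes} (hr₀ : r₀ ∈ R) (ha : a r₀ ≠ 0) :
    ∃ l : Nat.Primes, l ∉ R ∧ l ∉ T ∧ p ^ N ∣ (l : ℕ) - 1 ∧ p ∣ (l : ℕ) - 1 ∧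
      (∃ φ : LG (l : ℕ), (padicPlace (l : ℕ)).IsFrobeniusAt (loc (l : ℕ) φ) (l : ℕ) ∧
        ψ (loc (l : ℕ) φ) = 1) ∧
      ∃ c : ZMod p, c ≠ 0 ∧ ∀ r ∈ R, psi0 p (l : ℕ) ((r : ℕ) : ℤ) = c * a r := by
  classical
  have h2 : (2 : ZMod p) ≠ 0 := Trans.two_ne_zero_zmod hp2
  obtain ⟨g₀, hg₀1, hg₀⟩ := exists_kc_eq (p := p) (fun r : R => primeUM r.1)
    (fun r => -(a r.1 * 2⁻¹)) fun n hn => by
    obtain ⟨b, hb⟩ := hn
    obtain ⟨r, -, hr⟩ := exists_rat_of_fixUM b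
    have h := congrArg (fun x : fixUM GQ (AlgebraicClosure ℚ) => x.1.val) hb
    simp only [AddSubmonoidClass.coe_nsmul, AddSubmonoidClass.coe_finsetSum, UM.val_nsmul,
      UM.val_sum, hr, primeUM, val_intUM] at h
    have h' : r ^ p = ∏ q : R, ((q.1 : ℕ) : ℚ) ^ n q := by
      apply (Rat.cast_injective (α := AlgebraicClosure ℚ))
      push_cast
      rw [h]
      simp
    exact Finset.sum_eq_zero fun q _ => by rw [dvd_of_pow_eq_prod R n h' q, zero_mul]
  -- the commutator with complex conjugation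
  set τ := complexConjugation
  set g := τ * g₀ * τ⁻¹ * g₀⁻¹ with hg
  have hψτ : ψ τ = 1 := by
    obtain ⟨k, hk⟩ := hX (ψ τ)
    have hodd : Odd (p ^ k) := (hp.out.odd_of_ne_two hp2).pow
    obtain ⟨m, hm⟩ := hodd
    have h1 : ψ τ * ψ τ = 1 := by rw [← map_mul, complexConjugation_mul_self, map_one]
    rw [hm, pow_succ, pow_mul, sq, h1, one_pow, one_mul] at hk
    exact hk
  have hψg : ψ g = 1 := by
    rw [hg, map_mul, map_mul, map_mul, map_inv, map_inv, hψτ, inv_one, one_mul, mul_one,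
      mul_inv_cancel]
  have hcg : ExtCitation.cycloChar p g = 1 := by
    rw [hg, map_mul, map_mul, map_mul, map_inv, map_inv, hg₀1, mul_one, inv_one, mul_one,
      mul_inv_cancel]
  have hτv : ((cycQ p).χ τ : ZMod p) = -1 := cycloChar_complexConjugation
  have hkc : ∀ r : R, (cycQ p).kc (primeUM r.1) g = a r.1 := fun r => by
    set k := (cycQ p).kc (primeUM r.1)
    have hm : ∀ x y, k (x * y) = ((cycQ p).χ x : ZMod p) * k y + k x :=
      ((cycQ p).kc_mem (primeUM r.1)).2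
    have e1 : g * (g₀ * τ) = τ * g₀ := by rw [hg]; group
    have e2 := hm g (g₀ * τ)
    rw [e1, hm g₀ τ, hm τ g₀, show (cycQ p).χ g = 1 from hcg,
      show (cycQ p).χ g₀ = 1 from hg₀1, hτv, Units.val_one, one_mul, one_mul,
      show k g₀ = -(a r.1 * 2⁻¹) from hg₀ r] at e2
    have h3 : k g = (a r.1 * 2⁻¹) * 2 := by linear_combination -e2
    rwa [mul_assoc, inv_mul_cancel₀ h2, mul_one] at h3
  -- the roots of unity
  have : NeZero (p ^ N) := ⟨pow_ne_zero _ hp.out.ne_zero⟩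
  have : NeZero ((p ^ N : ℕ) : AlgebraicClosure ℚ) :=
    ⟨Nat.cast_ne_zero.2 (pow_ne_zero _ hp.out.ne_zero)⟩
  obtain ⟨ζ, hζ⟩ := HasEnoughRootsOfUnity.exists_primitiveRoot (AlgebraicClosure ℚ) (p ^ N)
  have hgζ : g ζ = ζ := by
    have act : ∀ x : GQ, ∃ i, x ζ = ζ ^ i := fun x => by
      obtain ⟨i, -, hi⟩ := hζ.eq_pow_of_pow_eq_one (ξ := x ζ)
        (by rw [← map_pow, hζ.pow_eq_one, map_one])
      exact ⟨i, hi.symm⟩
    obtain ⟨i, hi⟩ := act τ
    obtain ⟨j, hj⟩ := act g₀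
    have hcomm : (τ * g₀) ζ = (g₀ * τ) ζ := by
      rw [AlgEquiv.mul_apply, AlgEquiv.mul_apply, hi, hj, map_pow, map_pow, hi, hj, ← pow_mul,
        ← pow_mul, mul_comm]
    obtain ⟨k, hk⟩ := act g
    have h4 : (g * (g₀ * τ)) ζ = (g₀ * τ) ζ := by
      rw [← hcomm, hg]
      congr 1
      group
    rw [AlgEquiv.mul_apply] at h4
    obtain ⟨m, hm⟩ := act (g₀ * τ)
    rw [hm, map_pow, hk, ← pow_mul] at h4
    have hmu : IsPrimitiveRoot (ζ ^ m) (p ^ N) := hm ▸ hζ.map_of_injective (g₀ * τ).injective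
    have hmcop : m.Coprime (p ^ N) := (hζ.pow_iff_coprime (pow_pos hp.out.pos N) m).1 hmu
    rw [hk]
    conv_rhs => rw [← pow_one ζ]
    have hmod := (hζ.isOfFinOrder (pow_ne_zero N hp.out.ne_zero)).pow_eq_pow_iff_modEq.1 h4
    refine (hζ.isOfFinOrder (pow_ne_zero N hp.out.ne_zero)).pow_eq_pow_iff_modEq.2 ?_
    rw [← hζ.eq_orderOf] at hmod ⊢
    exact Nat.ModEq.cancel_right_of_coprime hmcop.symm (by rwa [one_mul])
  -- a common level
  obtain ⟨N₁, hN₁, hs⟩ : LC₁ LQ fun x => fun r : R => (cycQ p).kc (primeUM r.1) x := by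
    have key : ∀ s : Finset R, ∃ M ∈ LQ.carrier, ∀ r ∈ s, ∀ x n, n ∈ M →
        (cycQ p).kc (primeUM r.1) (x * n) = (cycQ p).kc (primeUM r.1) x := by
      intro s
      induction s using Finset.induction_on with
      | empty => exact ⟨⊤, LQ.top_mem, fun i hi => absurd hi (Finset.notMem_empty i)⟩
      | insert b s hb ih =>
        obtain ⟨M, hM, h⟩ := ih
        obtain ⟨M', hM', h'⟩ := ((cycQ p).kc_mem (primeUM b.1)).1
        refine ⟨M ⊓ M', LQ.inf_mem hM hM', fun i hi x n hn => ?_⟩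
        rcases Finset.mem_insert.1 hi with rfl | hi
        · exact h' x n hn.2
        · exact h i hi x n hn.1
    obtain ⟨M, hM, h⟩ := key Finset.univ
    exact ⟨M, hM, fun x n hn => funext fun i => h i (Finset.mem_univ i) x n hn⟩
  obtain ⟨N₂, hN₂, hχ⟩ := (smooth_chr_iff _).1 (cycQ p).smooth_chr
  obtain ⟨N₃, hN₃, hfix⟩ := (galAct_fieldLevels (F := ℚ) (Ω := AlgebraicClosure ℚ)).smooth ζ
  obtain ⟨M, hM, hle, hn⟩ := LQ.exists_normal (LQ.inf_mem (LQ.inf_mem hN₁ hN₂)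
    (LQ.inf_mem hN₃ (mem_LQ_iff_isOpen.2 hψ)))
  obtain ⟨q, A, σ, k, hq, hqS, hA, hσ, hk, j, hj⟩ := FA.Density.exists_frobenius_generating M
    (isOpen_of_mem_LQ hM) g
    ((insert (⟨p, hp.out⟩ : Nat.Primes) (R ∪ T)).image fun q : Nat.Primes => (q : ℕ))
  have : Fact q.Prime := ⟨hq⟩
  have hσg : σ = g ^ j * ((g ^ j)⁻¹ * σ) := (mul_inv_cancel_left _ _).symm
  have hσψ : ψ σ = 1 := by
    rw [hσg, map_mul, map_pow, hψg, one_pow, one_mul]
    exact MonoidHom.mem_ker.1 (hle hj).2.2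
  have hσ1 : ExtCitation.cycloChar p σ = 1 := by
    rw [hσg, map_mul, map_pow, hcg, one_pow, one_mul]
    exact hχ _ (hle hj).1.2
  have hσζ : σ ζ = ζ := by
    rw [hσg, AlgEquiv.mul_apply, show ((g ^ j)⁻¹ * σ) ζ = ζ from hfix _ (hle hj).2.1]
    clear hσg hj
    induction j with
    | zero => rfl
    | succ j ih => rw [pow_succ, AlgEquiv.mul_apply, hgζ, ih]
  have hσw : ∀ r : R, (cycQ p).kc (primeUM r.1) σ = j * a r.1 := fun r => by
    have e := congrFun (hs (g ^ j) _ (hle hj).1.1) r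
    simp only [mul_inv_cancel_left] at e
    rw [e, kc_pow_of_ker _ hcg, hkc]
  have hj0 : (j : ZMod p) ≠ 0 := fun h0 => by
    have e := congrFun (hs (σ ^ k) _ (hle hk).1.1) ⟨r₀, hr₀⟩
    simp only [mul_inv_cancel_left] at e
    rw [kc_pow_of_ker _ hσ1, hσw ⟨r₀, hr₀⟩, hkc ⟨r₀, hr₀⟩, h0, zero_mul, mul_zero] at e
    exact ha e
  obtain ⟨ν, hν⟩ := FA.TW.exists_smul_eq_of_liesOver hq (A := padicPlace q) (B := A)
    (liesOverPrime_padicPlace q) hA
  have hfrob : (padicPlace q).IsFrobeniusAt (ν⁻¹ * σ * ν) q := by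
    have h := FA.Density.isFrobeniusAt_smul hσ ν⁻¹
    rwa [inv_inv, ← hν, inv_smul_smul] at h
  obtain ⟨φ, hφ⟩ : ν⁻¹ * σ * ν ∈ (loc q).range := by
    rw [range_loc]; exact hfrob.mem_decompositionSubgroup
  rw [← hφ] at hfrob
  have hnm : (⟨q, hq⟩ : Nat.Primes) ∉ insert (⟨p, hp.out⟩ : Nat.Primes) (R ∪ T) := fun h =>
    hqS (Finset.mem_image.2 ⟨_, h, rfl⟩)
  have hqp : (⟨q, hq⟩ : Nat.Primes) ≠ ⟨p, hp.out⟩ := fun h =>
    hnm (Finset.mem_insert.2 (Or.inl h))
  have hlR : (⟨q, hq⟩ : Nat.Primes) ∉ R := fun h =>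
    hnm (Finset.mem_insert_of_mem (Finset.mem_union_left _ h))
  have hlT : (⟨q, hq⟩ : Nat.Primes) ∉ T := fun h =>
    hnm (Finset.mem_insert_of_mem (Finset.mem_union_right _ h))
  have hqp' : q ≠ p := fun h => hqp (Subtype.ext h)
  -- the roots of unity are rational at `q`
  have hdvdN : p ^ N ∣ q - 1 := by
    set z := padicEmbedding q ζ
    have hz : IsPrimitiveRoot z (p ^ N) := hζ.map_of_injective (padicEmbedding q).injective
    have hz1 : ‖z‖ = 1 := norm_root_of_unity (pow_pos hp.out.pos N) hz.pow_eq_one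
    have h := near_frob hfrob hz1.le
    have hfx : (ν⁻¹ * σ * ν) ζ = ζ := by
      obtain ⟨i, -, hi⟩ := hζ.eq_pow_of_pow_eq_one (ξ := ν ζ)
        (by rw [← map_pow, hζ.pow_eq_one, map_one])
      rw [AlgEquiv.mul_apply, AlgEquiv.mul_apply, ← hi, map_pow, hσζ, hi, AlgEquiv.aut_inv,
        AlgEquiv.symm_apply_apply]
    rw [← iota_loc, hφ, hfx] at h
    have h' := root_eq_of_close (m := p ^ N)
      (fun hd => hqp' ((Nat.prime_dvd_prime_iff_eq hq hp.out).1 (hq.dvd_of_dvd_pow hd)))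
      hz.pow_eq_one (by rw [← pow_mul, mul_comm, pow_mul, hz.pow_eq_one, one_pow]) h
    have hmod := (hz.isOfFinOrder (pow_ne_zero N hp.out.ne_zero)).pow_eq_pow_iff_modEq.1
      ((pow_one z).trans h')
    rw [← hz.eq_orderOf] at hmod
    exact (Nat.modEq_iff_dvd' hq.one_le).1 hmod
  have hdvd : p ∣ q - 1 := by
    set z := padicEmbedding q (zetaQ p)
    have hz : IsPrimitiveRoot z p := zetaQ_spec.map_of_injective (padicEmbedding q).injective
    have h := near_frob hfrob (norm_root_of_unity hp.out.pos hz.pow_eq_one).le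
    rw [← iota_loc, apply_zetaQ, show ExtCitation.cycloChar p (loc q φ) = 1 by
      rw [hφ, map_mul, map_mul, map_inv, hσ1, mul_one, inv_mul_cancel], Units.val_one,
      ZMod.val_one, pow_one] at h
    have h' := root_eq_of_close (m := p)
      (fun hd => hqp' ((Nat.prime_dvd_prime_iff_eq hq hp.out).1 hd)) hz.pow_eq_one
      (by rw [← pow_mul, mul_comm, pow_mul, hz.pow_eq_one, one_pow]) h
    have hmod := (hz.isOfFinOrder hp.out.ne_zero).pow_eq_pow_iff_modEq.1 ((pow_one z).trans h')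
    rw [← hz.eq_orderOf] at hmod
    exact (Nat.modEq_iff_dvd' hq.one_le).1 hmod
  refine ⟨⟨q, hq⟩, hlR, hlT, hdvdN, hdvd, ⟨φ, hfrob, by
    rw [hφ, map_mul, map_mul, map_inv, hσψ, mul_one, inv_mul_cancel]⟩,
    ((cycQ p).χ ν⁻¹ : ZMod p) * j, mul_ne_zero (Units.ne_zero _) hj0, fun r hr => ?_⟩
  have hdiv : ¬ (q : ℤ) ∣ ((r : ℕ) : ℤ) := fun h => hlR (by
    have := (Nat.prime_dvd_prime_iff_eq hq r.2).1 (Int.natCast_dvd_natCast.1 h)
    rwa [show (⟨q, hq⟩ : Nat.Primes) = r from Subtype.ext this])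
  show psi0 p q ((r : ℕ) : ℤ) = _
  rw [← kc_frob hdvd (a := primeUM r) (val_intUM _ _) hdiv hfrob, hφ,
    ((cycQ p).kc_mem (primeUM r)).2, chr_apply, map_mul, show (cycQ p).χ σ = 1 from hσ1, mul_one,
    ((cycQ p).kc_mem (primeUM r)).2 ν⁻¹ σ, chr_apply]
  have h0 : (cycQ p).kc (primeUM r) ν⁻¹
      = -(((cycQ p).χ ν⁻¹ : ZMod p) * (cycQ p).kc (primeUM r) ν) := by
    have := ((cycQ p).kc_mem (primeUM r)).2 ν⁻¹ ν
    have h1 : (cycQ p).kc (primeUM r) 1 = 0 :=
      Z1.map_one (ρ := chr (cycQ p).χ) ⟨_, (cycQ p).kc_mem (primeUM r)⟩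
    rw [inv_mul_cancel, h1, chr_apply] at this
    exact eq_neg_of_add_eq_zero_right this.symm
  rw [h0, hσw ⟨r, hr⟩]
  ring

end Fermat.Agent.ScholzReichardt
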