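import Fermat.Agent.ScholzReichardt.Characters

/-!
# Central embedding problems for Scholz extensions are soluble

Locally they are soluble: through the unramified quotient at the unramified primes, and at a
ramified one because the decomposition image is cyclic and `q ≡ 1` modulo a multiple of the order.
The obstruction dies on `ℚ(μ_p)` by the Hasse principle, hence over `ℚ`, as the degree is prime
to `p`.
-/

set_option autoImplicit false
set_option linter.unusedSectionVars false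

noncomputable section

namespace Fermat.Agent.ScholzReichardt

open FA.GalCoh
open scoped Pointwise

variable {p : ℕ} [hp : Fact p.Prime] {E : Type} [Group E] [Finite E] {G : Type} [Group G]
variable {N : ℕ}

theorem ne_of_dvd_sub_one' (hN : 0 < N) {q : ℕ} (hq : q.Prime) (h : p ^ N ∣ q - 1) : q ≠ p := by
  rintro rfl
  have h1 := Nat.le_of_dvd (by have := hq.two_le; omega) ((dvd_pow_self q hN.ne').trans h)
  have := hq.two_le
  omega

theorem pow_eq_one_of_card_dvd (hNE : Nat.card E ∣ p ^ N) (e : E) : e ^ p ^ N = 1 :=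
  orderOf_dvd_iff_pow_eq_one.1 ((orderOf_dvd_natCard e).trans hNE)

theorem pos_of_card_dvd (D : CExt p E G) (hNE : Nat.card E ∣ p ^ N) : 0 < N := by
  rcases Nat.eq_zero_or_pos N with rfl | h
  · rw [pow_zero, Nat.dvd_one] at hNE
    have := (Nat.card_eq_one_iff_unique.1 hNE).1
    exact absurd (D.ja_injective (Subsingleton.elim (D.ja 1) (D.ja 0))) one_ne_zero
  · exact h

/-- The local embedding problems are soluble. -/
theorem exists_local_lift (D : CExt p E G) (hNE : Nat.card E ∣ p ^ N) {f : GQ →* G}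
    (hf : IsScholz p N f) (q : Nat.Primes) :
    ∃ β : LG (q : ℕ) →* E, LC₁ (LL (q : ℕ)) β ∧ ∀ τ, D.π (β τ) = f (loc (q : ℕ) τ) := by
  have hfl := loc_lc f hf.isOpen (q : ℕ)
  rcases hf.ram q with hu | ⟨hq1, hdec⟩
  · obtain ⟨e, he⟩ := D.surj (f (loc (q : ℕ) (frobL (q : ℕ))))
    have : NeZero (orderOf e) := ⟨(isOfFinOrder_of_finite e).orderOf_pos.ne'⟩
    let β : LG (q : ℕ) →* E :=
      powChar e (pow_orderOf_eq_one e) (frobExp (orderOf e)) frobExp_mul
    refine ⟨β, powChar_lc _ _ _ (frobExp_lc _),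
      fun τ => DFunLike.congr_fun (locHom_ext (f := D.π.comp β) (f' := f.comp (loc (q : ℕ)))
        ((powChar_lc _ _ _ (frobExp_lc _)).comp D.π) hfl (fun ι hι => ?_) ?_) τ⟩
    · show D.π (e ^ (frobExp _ ι).val) = f (loc (q : ℕ) ι)
      rw [frobExp_inertL hι, ZMod.val_zero, pow_zero, map_one, hu ι hι]
    · show D.π (e ^ (frobExp _ (frobL (q : ℕ))).val) = f (loc (q : ℕ) (frobL (q : ℕ)))
      rw [frobExp_frobL, ← he]
      rcases Nat.eq_or_lt_of_le (isOfFinOrder_of_finite e).orderOf_pos with h1 | h1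
      · rw [(orderOf_eq_one_iff.1 h1.symm), one_pow]
      · have : Fact (1 < orderOf e) := ⟨h1⟩
        rw [ZMod.val_one, pow_one]
  · have hN := pos_of_card_dvd D hNE
    have hqp := ne_of_dvd_sub_one' hN q.2 hq1
    have : NeZero (p ^ N) := ⟨pow_ne_zero _ hp.out.ne_zero⟩
    have hG : IsPGroup p G := fun g => by
      obtain ⟨e, rfl⟩ := D.surj g
      exact ⟨N, by rw [← map_pow, pow_eq_one_of_card_dvd hNE, map_one]⟩
    obtain ⟨t, -, w, hw, hwlc, -, -, hgen⟩ := exists_tame_char hqp hq1 hG f hf.isOpen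
    obtain ⟨e, he⟩ := D.surj (f (loc (q : ℕ) t))
    have hxN : f (loc (q : ℕ) t) ^ p ^ N = 1 := by
      rw [← he, ← map_pow, pow_eq_one_of_card_dvd hNE, map_one]
    have hcast : ∀ i : ℕ, D.π (e ^ (i : ZMod (p ^ N)).val) = f (loc (q : ℕ) t) ^ i := fun i => by
      rw [map_pow, he, ZMod.val_natCast, ← pow_eq_pow_mod i hxN]
    obtain ⟨ι₀, hι₀, hF⟩ := hdec (frobL (q : ℕ))
    obtain ⟨i₀, hi₀, -⟩ := hgen ι₀ hι₀
    let v : LG (q : ℕ) → ZMod (p ^ N) := fun τ =>
      w (loc (q : ℕ) τ) + ((i₀ : ZMod (p ^ N)) - w (loc (q : ℕ) (frobL (q : ℕ)))) *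
        frobExp (p ^ N) τ
    have hv : ∀ a b, v (a * b) = v a + v b := fun a b => by
      simp only [v, map_mul, hw, frobExp_mul]
      ring
    have hvlc : LC₁ (LL (q : ℕ)) v :=
      (hwlc.precomp compat_loc).map₂ (frobExp_lc (p ^ N)) fun a b =>
        a + ((i₀ : ZMod (p ^ N)) - w (loc (q : ℕ) (frobL (q : ℕ)))) * b
    let β : LG (q : ℕ) →* E := powChar e (pow_eq_one_of_card_dvd hNE e) v hv
    refine ⟨β, powChar_lc _ _ _ hvlc,
      fun τ => DFunLike.congr_fun (locHom_ext (f := D.π.comp β) (f' := f.comp (loc (q : ℕ)))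
        ((powChar_lc _ _ _ hvlc).comp D.π) hfl (fun ι hι => ?_) ?_) τ⟩
    · obtain ⟨i, hi, hwi⟩ := hgen ι hι
      show D.π (e ^ (v ι).val) = f (loc (q : ℕ) ι)
      simp only [v]
      rw [frobExp_inertL hι, mul_zero, add_zero, hwi, hi, hcast]
    · show D.π (e ^ (v (frobL (q : ℕ))).val) = f (loc (q : ℕ) (frobL (q : ℕ)))
      simp only [v]
      rw [frobExp_frobL, mul_one, add_sub_cancel, hcast, hF, hi₀]

variable {E' : Type*} [Group E'] {G' : Type*} [Group G']

/-- **The obstruction to a lift**: a two-cocycle, trivial at every finite place of every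
subfield as soon as lifts exist locally, whose vanishing gives a lift. -/
theorem exists_obstruction (D : CExt p E' G') {f : GQ →* G'}
    (hfo : IsOpen (f.ker : Set GQ))
    (hlocal : ∀ q : Nat.Primes, ∃ β : LG (q : ℕ) →* E', LC₁ (LL (q : ℕ)) β ∧
      ∀ τ, D.π (β τ) = f (loc (q : ℕ) τ)) :
    ∃ Z : ↥(Z2 LQ (triv GQ p)),
      (∀ H : Subgroup GQ, LocTriv2 H
        (res2t (p := p) (Levels.sub_compat LQ H) (mk2 LQ (triv GQ p) Z))) ∧
      (mk2 LQ (triv GQ p) Z = 0 →
        ∃ ψ : GQ →* E', IsOpen (ψ.ker : Set GQ) ∧ ∀ g, D.π (ψ g) = f g) := by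
  classical
  let s : G' → E' := Function.surjInv D.surj
  have hs : ∀ g, D.π (s g) = g := Function.surjInv_eq D.surj
  have hc0 : ∀ g h, D.π (s (f g) * s (f h) * (s (f (g * h)))⁻¹) = 1 := fun g h => by
    rw [map_mul, map_mul, map_inv, hs, hs, hs, map_mul, mul_inv_cancel]
  choose c hc using fun x : GQ × GQ => D.exists_ja (hc0 x.1 x.2)
  have hmul : ∀ g h, s (f g) * s (f h) = D.ja (c (g, h)) * s (f (g * h)) := fun g h => by
    rw [hc (g, h), inv_mul_cancel_right]
  have hfker : f.ker ∈ LQ.carrier := mem_LQ_iff_isOpen.2 hfo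
  have hclc : LC₂ LQ c := ⟨f.ker, hfker, fun g g' u u' hu hu' => D.ja_injective (by
    rw [hc, hc]
    simp only [map_mul, MonoidHom.mem_ker.1 hu, MonoidHom.mem_ker.1 hu', mul_one])⟩
  have hcoc : ∀ g h k, c (g * h, k) + c (g, h) = c (h, k) + c (g, h * k) := fun g h k => by
    refine D.ja_injective (mul_right_cancel (b := s (f (g * (h * k)))) ?_)
    rw [D.ja_add, D.ja_add]
    calc D.ja (c (g * h, k)) * D.ja (c (g, h)) * s (f (g * (h * k)))
        = D.ja (c (g, h)) * (D.ja (c (g * h, k)) * s (f (g * h * k))) := by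
          rw [D.ja_comm, mul_assoc g h k, mul_assoc]
      _ = D.ja (c (g, h)) * s (f (g * h)) * s (f k) := by rw [← hmul, ← mul_assoc]
      _ = s (f g) * (s (f h) * s (f k)) := by rw [← hmul, mul_assoc]
      _ = s (f g) * D.ja (c (h, k)) * s (f (h * k)) := by rw [hmul, mul_assoc]
      _ = D.ja (c (h, k)) * (D.ja (c (g, h * k)) * s (f (g * (h * k)))) := by
          rw [← D.ja_comm, mul_assoc, hmul]
      _ = _ := by rw [mul_assoc]
  let Z : ↥(Z2 LQ (triv GQ p)) := ⟨c, hclc, fun g h k => hcoc g h k⟩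
  refine ⟨Z, fun H q hq g => ?_, fun hZ0 => ?_⟩
  · have hcompH : Compat LQ (LQ.sub H) H.subtype := Levels.sub_compat LQ H
    obtain ⟨β, hβlc, hβ⟩ : ∃ β : LG q →* E', LC₁ (LL q) β ∧ ∀ τ, D.π (β τ) = f (loc q τ) :=
      hlocal ⟨q, hq.out⟩
    let b : hloc H q g → E' := fun τ => (s (f g))⁻¹ * β τ.1 * s (f g)
    have hb0 : ∀ τ : hloc H q g, D.π (b τ * (s (f (g⁻¹ * loc q τ.1 * g)))⁻¹) = 1 := fun τ => by
      rw [map_mul, map_mul, map_mul, map_inv, map_inv, hs, hs, hβ, map_mul, map_mul, map_inv]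
      exact mul_inv_cancel _
    choose a ha using fun τ => D.exists_ja (hb0 τ)
    have hbmul : ∀ τ τ', b (τ * τ') = b τ * b τ' := fun τ τ' => by
      show (s (f g))⁻¹ * β (τ.1 * τ'.1) * s (f g) = _
      simp only [b, map_mul]
      group
    refine (mk2_eq_zero _ _ _).2 ⟨fun τ => -a τ, ?_, funext fun x => ?_⟩
    · obtain ⟨M, hM, hMs⟩ := hβlc
      obtain ⟨M', hM', hM's⟩ := loc_lc f hfo q
      refine ⟨_, ⟨M ⊓ M', (LL q).inf_mem hM hM', rfl⟩, fun τ u hu => ?_⟩
      refine congrArg Neg.neg (D.ja_injective ?_)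
      rw [ha, ha]
      obtain ⟨hu1, hu2⟩ : (u : LG q) ∈ M ∧ (u : LG q) ∈ M' := hu
      have h1 : β ((τ : LG q) * u) = β τ := hMs _ _ hu1
      have h2 : f (loc q ((τ : LG q) * u)) = f (loc q τ) := hM's _ _ hu2
      simp only [b, Subgroup.coe_mul, h1]
      rw [map_mul f, map_mul f, h2, ← map_mul f, ← map_mul f]
    · show -a x.2 - -a (x.1 * x.2) + -a x.1
        = c (g⁻¹ * loc q x.1.1 * g, g⁻¹ * loc q x.2.1 * g)
      set X₁ := g⁻¹ * loc q x.1.1 * g
      set X₂ := g⁻¹ * loc q x.2.1 * g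
      have h12 : g⁻¹ * loc q (x.1 * x.2 : hloc H q g).1 * g = X₁ * X₂ := by
        simp only [X₁, X₂, Subgroup.coe_mul, map_mul]
        group
      have e : a (x.1 * x.2) = a x.1 + a x.2 + c (X₁, X₂) := by
        refine D.ja_injective (mul_right_cancel (b := s (f (X₁ * X₂))) ?_)
        have e1 : b x.1 = D.ja (a x.1) * s (f X₁) := by rw [ha, inv_mul_cancel_right]
        have e2 : b x.2 = D.ja (a x.2) * s (f X₂) := by rw [ha, inv_mul_cancel_right]
        calc D.ja (a (x.1 * x.2)) * s (f (X₁ * X₂)) = b (x.1 * x.2) := by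
              rw [ha, h12, inv_mul_cancel_right]
          _ = D.ja (a x.1) * (s (f X₁) * D.ja (a x.2)) * s (f X₂) := by
              rw [hbmul, e1, e2]; group
          _ = D.ja (a x.1) * D.ja (a x.2) * (s (f X₁) * s (f X₂)) := by
              rw [← D.ja_comm]; group
          _ = D.ja (a x.1 + a x.2 + c (X₁, X₂)) * s (f (X₁ * X₂)) := by
              rw [hmul, D.ja_add, D.ja_add]; group
      rw [e]
      abel
  obtain ⟨b, hblc, hb⟩ := (mk2_eq_zero _ _ Z).1 hZ0
  have hb' : ∀ g h, c (g, h) = b h - b (g * h) + b g := fun g h => (congrFun hb (g, h)).symm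
  let ψ : GQ →* E' := MonoidHom.mk' (fun g => D.ja (-b g) * s (f g)) fun g h => by
    calc D.ja (-b (g * h)) * s (f (g * h))
        = D.ja (-b g + -b h) * (D.ja (c (g, h)) * s (f (g * h))) := by
          rw [← mul_assoc, ← D.ja_add, hb']
          congr 2
          abel
      _ = D.ja (-b g) * (D.ja (-b h) * s (f g)) * s (f h) := by
          rw [← hmul, D.ja_add]; group
      _ = _ := by rw [D.ja_comm (-b h)]; group
  refine ⟨ψ, isOpen_of_lc ψ (hblc.map₂ (lc_of_isOpen f hfo)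
    fun u v => D.ja (-u) * s v), fun g => ?_⟩
  show D.π (D.ja (-b g) * s (f g)) = f g
  rw [map_mul, D.π_ja, one_mul, hs]

/-- Lifts exist as soon as they exist locally everywhere. -/
theorem exists_lift_of_local (hp2 : p ≠ 2) (D : CExt p E' G') {f : GQ →* G'}
    (hfo : IsOpen (f.ker : Set GQ))
    (hlocal : ∀ q : Nat.Primes, ∃ β : LG (q : ℕ) →* E', LC₁ (LL (q : ℕ)) β ∧
      ∀ τ, D.π (β τ) = f (loc (q : ℕ) τ)) :
    ∃ ψ : GQ →* E', IsOpen (ψ.ker : Set GQ) ∧ ∀ g, D.π (ψ g) = f g := by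
  classical
  obtain ⟨Z, hloc, hlift⟩ := exists_obstruction D hfo hlocal
  let H : Subgroup GQ := (ExtCitation.cycloChar p).ker
  have hH1 : ∀ h ∈ H, (cycQ p).χ h = 1 := fun h hh => hh
  have hH : H ∈ LQ.carrier := by
    obtain ⟨M, ⟨F, hF, hle⟩, h⟩ := (smooth_chr_iff _).1 (cycQ p).smooth_chr
    exact ⟨F, hF, fun g hg => h g (hle hg)⟩
  have hT : TC H := fun g hg => by
    have h1 : ExtCitation.cycloChar p (g * complexConjugation * g⁻¹) = 1 := hg
    rw [map_mul, map_mul, map_inv, mul_comm (ExtCitation.cycloChar p g), mul_inv_cancel_right] at h1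
    have h2 := cycloChar_complexConjugation (p := p)
    rw [h1, Units.val_one, ← sub_eq_zero, sub_neg_eq_add, one_add_one_eq_two] at h2
    exact Trans.two_ne_zero_zmod hp2 h2
  -- the obstruction dies on the kernel of the cyclotomic character
  have hcompH : Compat LQ (LQ.sub H) H.subtype := Levels.sub_compat LQ H
  have hzero : res2t hcompH (mk2 LQ (triv GQ p) Z) = 0 :=
    hasse_H2 hH hT ((cycQ p).kumData H hH1) (hloc H)
  -- restriction is injective
  have hn : H.Normal := MonoidHom.normal_ker _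
  have := LQ.finiteIndex hH
  let _ : Fintype (GQ ⧸ H) := Fintype.ofFinite _
  let T := cosetTrans LQ H hH hn le_rfl
  have hcard : (Fintype.card (GQ ⧸ H) : ZMod p) ≠ 0 := fun h => by
    rw [ZMod.natCast_eq_zero_iff, Fintype.card_eq_nat_card, ← Subgroup.index_eq_card,
      Subgroup.index_ker] at h
    have h' := h.trans (Subgroup.card_subgroup_dvd_card (ExtCitation.cycloChar p).range)
    rw [Nat.card_eq_fintype_card, ZMod.card_units] at h'
    have := Nat.le_of_dvd (by have := hp.out.one_lt; omega) h'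
    have := hp.out.pos
    omega
  have hZ0 : mk2 LQ (triv GQ p) Z = 0 := by
    refine res2_injective_of_card T hcard (Eq.trans ?_ (map_zero _).symm)
    let i : T.H →* H := T.H.subtype.codRestrict _ fun g => (mem_cosetTrans_H hH hn le_rfl).1 g.2
    have hi : Compat (LQ.sub H) (LQ.sub T.H) i := by
      rintro _ ⟨M, hM, rfl⟩
      exact ⟨_, ⟨M, hM, rfl⟩, fun g hg => hg⟩
    have := congrArg (res2t (p := p) hi) hzero
    rw [map_zero] at this
    rw [← this]
    rfl
  exact hlift hZ0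

/-- **The lifting lemma.** -/
theorem exists_lift (hp2 : p ≠ 2) (D : CExt p E G) (hNE : Nat.card E ∣ p ^ N) {f : GQ →* G}
    (hf : IsScholz p N f) :
    ∃ ψ : GQ →* E, IsOpen (ψ.ker : Set GQ) ∧ ∀ g, D.π (ψ g) = f g :=
  exists_lift_of_local hp2 D hf.isOpen fun q => exists_local_lift D hNE hf q

end Fermat.Agent.ScholzReichardt
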