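import Fermat.Agent.ScholzReichardt.Characters

/-!
# `p`-groups over `ℚ_p`

For odd `p` the first cohomology of `ℚ_p` with coefficients `ℤ/p` is a plane and the second
vanishes, so any two elements of a finite `p`-group are the images of a fixed Frobenius element and
a fixed inertia element under exactly one homomorphism of the local Galois group.
-/

set_option autoImplicit false
set_option linter.unusedSectionVars false

noncomputable section

namespace Fermat.Agent.ScholzReichardt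

open FA.GalCoh
open scoped Pointwise

variable {p : ℕ} [hp : Fact p.Prime]

theorem lc_of_isOpen_local {q : ℕ} [Fact q.Prime] {X : Type*} [Group X] (f : LG q →* X)
    (h : IsOpen (f.ker : Set (LG q))) : LC₁ (LL q) f := by
  obtain ⟨F, hF, hle⟩ := (krullTopology_mem_nhds_one_iff _ _ _).1 (h.mem_nhds f.ker.one_mem)
  exact lc_of_ker f ⟨F, hF, hle⟩

theorem isOpen_of_lc_local {q : ℕ} [Fact q.Prime] {X : Type*} [Group X] (f : LG q →* X)
    (h : LC₁ (LL q) f) : IsOpen (f.ker : Set (LG q)) := by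
  obtain ⟨M, ⟨F, hF, hle⟩, hs⟩ := h
  refine Subgroup.isOpen_mono (H₁ := F.fixingSubgroup) (fun s hs' => MonoidHom.mem_ker.2 ?_)
    (IntermediateField.fixingSubgroup_isOpen F)
  simpa using hs 1 s (hle hs')

/-- The second cohomology of `ℚ_p` with coefficients `ℤ/p` vanishes. -/
theorem subsingleton_H2_local (hp2 : p ≠ 2) : Subsingleton (H2 (LL p) (triv (LG p) p)) := by
  obtain ⟨hfin, h⟩ := finrank_H2Q p (trivPair p)
  rw [invariants_chr_loc_eq_bot hp2, finrank_bot] at h
  exact Module.finrank_zero_iff.1 h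

variable {E : Type*} [Group E] {G : Type*} [Group G]

/-- Central embedding problems are soluble where the second cohomology vanishes. -/
theorem exists_lift_of_subsingleton {Γ : Type} [Group Γ] {L : Levels Γ}
    [Subsingleton (H2 L (triv Γ p))] (D : CExt p E G) {f : Γ →* G} (hf : LC₁ L f) :
    ∃ ψ : Γ →* E, LC₁ L ψ ∧ ∀ g, D.π (ψ g) = f g := by
  let s : G → E := Function.surjInv D.surj
  have hs : ∀ g, D.π (s g) = g := Function.surjInv_eq D.surj
  have hc0 : ∀ g h, D.π (s (f g) * s (f h) * (s (f (g * h)))⁻¹) = 1 := fun g h => by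
    rw [map_mul, map_mul, map_inv, hs, hs, hs, map_mul, mul_inv_cancel]
  choose c hc using fun x : Γ × Γ => D.exists_ja (hc0 x.1 x.2)
  have hmul : ∀ g h, s (f g) * s (f h) = D.ja (c (g, h)) * s (f (g * h)) := fun g h => by
    rw [hc (g, h), inv_mul_cancel_right]
  obtain ⟨M, hM, hMs⟩ := hf
  have h1 : ∀ u ∈ M, f u = 1 := fun u hu => by simpa using hMs 1 u hu
  have hclc : LC₂ L c := ⟨M, hM, fun g g' u u' hu hu' => D.ja_injective (by
    rw [hc, hc]
    simp only [map_mul, h1 u hu, h1 u' hu', mul_one])⟩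
  have hcoc : ∀ g h k, c (g * h, k) + c (g, h) = c (h, k) + c (g, h * k) := fun g h k => by
    refine D.ja_injective (mul_right_cancel (b := s (f (g * (h * k)))) ?_)
    rw [D.ja_add, D.ja_add]
    calc D.ja (c (g * h, k)) * D.ja (c (g, h)) * s (f (g * (h * k)))
        = D.ja (c (g, h)) * (D.ja (c (g * h, k)) * s (f (g * h * k))) := by
          rw [D.ja_comm, mul_assoc g h k, mul_assoc]
      _ = D.ja (c (g, h)) * s (f (g * h)) * s (f k) := by rw [← hmul, ← mul_assoc]
      _ = s (f g) * (s (f h) * s (f k)) := by rw [← hmul, mul_assoc]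
      _ = s (f g) * D.ja (c (h, k)) * s (f (h * k)) := by rw [hmul, mul_assoc]
      _ = D.ja (c (h, k)) * (D.ja (c (g, h * k)) * s (f (g * (h * k)))) := by
          rw [← D.ja_comm, mul_assoc, hmul]
      _ = _ := by rw [mul_assoc]
  let Z : ↥(Z2 L (triv Γ p)) := ⟨c, hclc, fun g h k => hcoc g h k⟩
  obtain ⟨b, hblc, hb⟩ := (mk2_eq_zero _ _ Z).1 (Subsingleton.elim _ _)
  have hb' : ∀ g h, c (g, h) = b h - b (g * h) + b g := fun g h => (congrFun hb (g, h)).symm
  let ψ : Γ →* E := MonoidHom.mk' (fun g => D.ja (-b g) * s (f g)) fun g h => by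
    calc D.ja (-b (g * h)) * s (f (g * h))
        = D.ja (-b g + -b h) * (D.ja (c (g, h)) * s (f (g * h))) := by
          rw [← mul_assoc, ← D.ja_add, hb']
          congr 2
          abel
      _ = D.ja (-b g) * (D.ja (-b h) * s (f g)) * s (f h) := by
          rw [← hmul, D.ja_add]; group
      _ = _ := by rw [D.ja_comm (-b h)]; group
  refine ⟨ψ, hblc.map₂ ⟨M, hM, hMs⟩ fun u v => D.ja (-u) * s v, fun g => ?_⟩
  show D.π (D.ja (-b g) * s (f g)) = f g
  rw [map_mul, D.π_ja, one_mul, hs]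

/-- A pair of elements dual to the local characters of order `p`. -/
def IsLocalBasis (p : ℕ) [Fact p.Prime] (F I : LG p) : Prop :=
  (∀ d : LG p → ZMod p, (∀ a b, d (a * b) = d a + d b) → LC₁ (LL p) d → d F = 0 → d I = 0 →
      ∀ τ, d τ = 0) ∧
    ∀ u v : ZMod p, ∃ d : LG p → ZMod p, (∀ a b, d (a * b) = d a + d b) ∧ LC₁ (LL p) d ∧
      d F = u ∧ d I = v

theorem exists_isLocalBasis (hp2 : p ≠ 2) : ∃ ι ∈ inertL p, IsLocalBasis p (frobL p) ι := by
  obtain ⟨κ, hκ, hκlc, -, ι, hι, hκι, hbasis⟩ := exists_wild_basis hp2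
  refine ⟨ι, hι, fun d hd hlc hF hI τ => ?_, fun u v => ?_⟩
  · obtain ⟨a, b, hab⟩ := hbasis d hd hlc
    rw [hab ι, unrChar_inertL hι, hκι, mul_zero, zero_add, mul_one] at hI
    rw [hab (frobL p), hI, zero_mul, add_zero, unrChar_frobL, mul_one] at hF
    rw [hab τ, hF, hI, zero_mul, zero_mul, add_zero]
  · refine ⟨fun τ => (u - v * κ (loc p (frobL p))) * unrChar p τ + v * κ (loc p τ), fun a b => by
      simp only [unrChar_mul, map_mul, hκ]; ring,
      unrChar_lc.map₂ (hκlc.precomp compat_loc) fun a b =>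
        (u - v * κ (loc p (frobL p))) * a + v * b, ?_, ?_⟩
    · show _ * unrChar p (frobL p) + v * κ (loc p (frobL p)) = u
      rw [unrChar_frobL, mul_one, sub_add_cancel]
    · show _ * unrChar p ι + v * κ (loc p ι) = v
      rw [unrChar_inertL hι, hκι, mul_zero, zero_add, mul_one]

variable {F I : LG p}

/-- A surjection onto a `p`-group sends the two elements to generators. -/
theorem IsLocalBasis.closure_eq_top (hB : IsLocalBasis p F I) [Finite G] (hG : IsPGroup p G)
    (ρ : LG p →* G) (hlc : LC₁ (LL p) ρ) (hρ : Function.Surjective ρ) :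
    Subgroup.closure {ρ F, ρ I} = ⊤ := by
  by_contra hne
  obtain ⟨χ, hχ, hχ0, g, hg⟩ := exists_char_of_ne_top hG hne
  obtain ⟨τ, rfl⟩ := hρ g
  exact hg (hB.1 (fun τ => χ (ρ τ)) (fun a b => by rw [map_mul, hχ]) (hlc.comp χ)
    (hχ0 _ (Subgroup.subset_closure (by simp))) (hχ0 _ (Subgroup.subset_closure (by simp))) τ)

/-- Any two elements of a `p`-group are the images of the two elements. -/
theorem IsLocalBasis.exists_hom (hB : IsLocalBasis p F I) (hp2 : p ≠ 2) {n : ℕ}
    (hn : Nat.card G = p ^ n) (x y : G) :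
    ∃ ρ : LG p →* G, LC₁ (LL p) ρ ∧ ρ F = x ∧ ρ I = y := by
  induction n generalizing G with
  | zero =>
    have : Subsingleton G := (Nat.card_eq_one_iff_unique.1 (hn.trans (pow_zero p))).1
    exact ⟨1, ⟨⊤, (LL p).top_mem, fun _ _ _ => rfl⟩, Subsingleton.elim _ _, Subsingleton.elim _ _⟩
  | succ n ih =>
    have : Finite G := Nat.finite_of_card_ne_zero (hn ▸ pow_ne_zero _ hp.out.ne_zero)
    have : Nontrivial G := Finite.one_lt_card_iff_nontrivial.1
      (hn ▸ Nat.one_lt_pow n.succ_ne_zero hp.out.one_lt)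
    obtain ⟨H, hH, D, hHc, hπ⟩ := exists_cExt_quotient (IsPGroup.of_card hn)
    obtain ⟨f, hf, hfF, hfI⟩ := ih (G := G ⧸ H) (by
      have h := H.card_eq_card_quotient_mul_card_subgroup
      rw [hHc, hn, pow_succ] at h
      exact (Nat.eq_of_mul_eq_mul_right hp.out.pos h).symm) (D.π x) (D.π y)
    have := subsingleton_H2_local hp2
    obtain ⟨β, hβ, hlift⟩ := exists_lift_of_subsingleton D hf
    obtain ⟨a, ha⟩ := D.exists_ja (e := (β F)⁻¹ * x)
      (by rw [map_mul, map_inv, hlift, hfF, inv_mul_cancel])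
    obtain ⟨b, hb⟩ := D.exists_ja (e := (β I)⁻¹ * y)
      (by rw [map_mul, map_inv, hlift, hfI, inv_mul_cancel])
    obtain ⟨d, hd, hdlc, hdF, hdI⟩ := hB.2 a b
    exact ⟨D.twist β d hd, D.twist_lc hβ hd hdlc,
      by rw [D.twist_apply, hdF, ha, mul_inv_cancel_left],
      by rw [D.twist_apply, hdI, hb, mul_inv_cancel_left]⟩

/-- The homomorphism is unique. -/
theorem IsLocalBasis.hom_ext (hB : IsLocalBasis p F I) [Finite G] (hG : IsPGroup p G)
    {ρ ρ' : LG p →* G} (h : LC₁ (LL p) ρ) (h' : LC₁ (LL p) ρ') (hF : ρ F = ρ' F)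
    (hI : ρ I = ρ' I) : ρ = ρ' := by
  have hGG : IsPGroup p (G × G) := fun z => by
    obtain ⟨a, ha⟩ := hG z.1
    obtain ⟨b, hb⟩ := hG z.2
    refine ⟨a + b, Prod.ext ?_ ?_⟩
    · show z.1 ^ p ^ (a + b) = 1
      rw [pow_add, pow_mul, ha, one_pow]
    · show z.2 ^ p ^ (a + b) = 1
      rw [pow_add, mul_comm, pow_mul, hb, one_pow]
  let K := (ρ.prod ρ').range
  let σ : LG p →* K := (ρ.prod ρ').rangeRestrict
  have hσlc : LC₁ (LL p) σ := by
    obtain ⟨M, hM, hMs⟩ := h.map₂ h' fun a b => (a, b)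
    exact ⟨M, hM, fun g s hs => Subtype.ext (hMs g s hs)⟩
  have htop := hB.closure_eq_top (hGG.to_subgroup K) σ hσlc
    (MonoidHom.rangeRestrict_surjective _)
  let d₁ : K →* G := (MonoidHom.fst G G).comp K.subtype
  let d₂ : K →* G := (MonoidHom.snd G G).comp K.subtype
  have hle : (⊤ : Subgroup K) ≤ d₁.eqLocus d₂ := htop ▸ (Subgroup.closure_le _).2 (by
    rintro k (rfl | rfl)
    · exact hF
    · exact hI)
  exact MonoidHom.ext fun τ => hle (Subgroup.mem_top (σ τ))

end Fermat.Agent.ScholzReichardt
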