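import Fermat.Agent.ScholzReichardt.Twist
import Fermat.Agent.ScholzReichardt.AuxiliaryPrime
import Fermat.Agent.SemidirectGalois.Realisable

/-!
# The theorem of Scholz and Reichardt

A Scholz extension lifts along a central extension with kernel of order `p`: the lift is twisted by
a character of conductor `l`, an auxiliary prime, which makes the decomposition images at the old
ramified primes equal to the inertia images again and makes the lift surjective. So every `p`-group,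
`p` odd, and with them every nilpotent group of odd order, is a Galois group over `ℚ`.
-/

set_option autoImplicit false
set_option linter.unusedSectionVars false

noncomputable section

namespace Fermat.Agent.ScholzReichardt

open FA.GalCoh
open scoped Pointwise

variable {p : ℕ} [hp : Fact p.Prime]

theorem cycloChar_eq_of_omega {l : ℕ} [hl : Fact l.Prime] {σ g : GQ}
    (h : FA.KroneckerWeber.omega l σ = FA.KroneckerWeber.omega l g) :
    ExtCitation.cycloChar l σ = ExtCitation.cycloChar l g := by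
  have key : ∀ x : GQ, ((FA.KroneckerWeber.omega l x : (ZMod (l ^ 1))ˣ) : ZMod (l ^ 1))
      = ((ExtCitation.cycloChar l x : ZMod l).val : ZMod (l ^ 1)) := fun x =>
    FA.KroneckerWeber.omega_eq_natCast l fun μ hμ => by
      have : NeZero l := ⟨hl.out.ne_zero⟩
      obtain ⟨i, -, rfl⟩ := (zetaQ_spec (p := l)).eq_pow_of_pow_eq_one hμ
      rw [map_pow, apply_zetaQ, ← pow_mul, ← pow_mul, mul_comm]
  have h' := key σ
  rw [h, key g, ZMod.natCast_eq_natCast_iff, pow_one] at h'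
  refine Units.ext (ZMod.val_injective l ?_)
  exact Nat.ModEq.eq_of_lt_of_lt h'.symm (ZMod.val_lt _) (ZMod.val_lt _)

variable {E : Type} [Group E] [Finite E] {G : Type} [Group G] {N : ℕ}

/-- **The induction step.** -/
theorem exists_scholz_step (hp2 : p ≠ 2) (D : CExt p E G) (hNE : Nat.card E ∣ p ^ N) {f : GQ →* G}
    (hf : IsScholz p N f) : ∃ ψ : GQ →* E, IsScholz p N ψ ∧
      ∃ l : Nat.Primes, ∀ q : Nat.Primes, UnrAt f (q : ℕ) → q ≠ l → UnrAt ψ (q : ℕ) := by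
  classical
  have hN := pos_of_card_dvd D hNE
  obtain ⟨ψ, hψ, hlift, hψu⟩ := exists_lift_unr hp2 D hNE hf
  obtain ⟨S₀, hS₀⟩ := exists_finset_unrAt f hf.isOpen
  set S := S₀.filter fun q : Nat.Primes => ¬ UnrAt f (q : ℕ) with hSdef
  have hS : ∀ q : Nat.Primes, q ∈ S ↔ ¬ UnrAt f (q : ℕ) := fun q => by
    rw [hSdef, Finset.mem_filter]
    exact ⟨fun h => h.2, fun h => ⟨by_contra fun hq => h (hS₀ q hq), h⟩⟩
  have hSdvd : ∀ q ∈ S, p ^ N ∣ (q : ℕ) - 1 := fun q hq =>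
    ((hf.ram q).resolve_left ((hS q).1 hq)).1
  set P : Nat.Primes := ⟨p, hp.out⟩
  have hPS : P ∉ S := fun h => ne_of_dvd_sub_one' hN P.2 (hSdvd P h) rfl
  -- the Frobenius defects
  have hdef : ∀ q : Nat.Primes, ∃ a : ZMod p, q ∈ S → ∃ ι ∈ inertL (q : ℕ),
      ψ (loc (q : ℕ) (frobL (q : ℕ))) * D.ja a = ψ (loc (q : ℕ) ι) := fun q => by
    by_cases hq : q ∈ S
    · obtain ⟨ι, hι, he⟩ := ((hf.ram q).resolve_left ((hS q).1 hq)).2 (frobL (q : ℕ))
      obtain ⟨a, ha⟩ := D.exists_ja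
        (e := (ψ (loc (q : ℕ) (frobL (q : ℕ))))⁻¹ * ψ (loc (q : ℕ) ι))
        (by rw [map_mul, map_inv, hlift, hlift, he, inv_mul_cancel])
      exact ⟨a, fun _ => ⟨ι, hι, by rw [ha, mul_inv_cancel_left]⟩⟩
    · exact ⟨0, fun h => absurd h hq⟩
  choose a₀ ha₀ using hdef
  let a : Nat.Primes → ZMod p := fun q => if q = P then 1 else a₀ q
  have hE : IsPGroup p E := fun e => ⟨N, pow_eq_one_of_card_dvd hNE e⟩
  obtain ⟨l, hlR, -, hlN, hlp, ⟨φ, hφ, hψφ⟩, c, hc, hla⟩ := exists_split_prime hp2 N hE ψ hψ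
    (insert P S) ∅ a (Finset.mem_insert_self P S) (by simp [a])
  have hlS : l ∉ S := fun h => hlR (Finset.mem_insert_of_mem h)
  have hlu : UnrAt ψ (l : ℕ) := hψu l (by_contra fun h => hlS ((hS l).2 h))
  -- the twist
  let χ : GQ → ZMod p := fun g => c⁻¹ * auxChar p (l : ℕ) g
  have hχ : ∀ x y, χ (x * y) = χ x + χ y := fun x y => by
    simp only [χ, auxChar_mul hlp, mul_add]
  have hχlc : LC₁ LQ χ := auxChar_lc.comp (c⁻¹ * ·)
  have hχloc : ∀ q : Nat.Primes, q ∈ insert P S → ∀ τ,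
      χ (loc (q : ℕ) τ) = a q * unrChar p τ := fun q hq τ => by
    have hne : (q : ℕ) ≠ l := fun e => hlR (Subtype.ext e ▸ hq)
    simp only [χ, auxChar_loc hlp hne, hla q hq]
    field_simp
  have hχunr : ∀ q : Nat.Primes, q ≠ l → ∀ ι ∈ inertL (q : ℕ), χ (loc (q : ℕ) ι) = 0 :=
    fun q hq ι hι => by
      simp only [χ, auxChar_loc hlp (fun e => hq (Subtype.ext e)), unrChar_inertL hι, mul_zero]
  obtain ⟨ι₁, hι₁, hχ1⟩ : ∃ ι ∈ inertL (l : ℕ), χ (loc (l : ℕ) ι) = 1 := by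
    obtain ⟨σ, hσ, hσω⟩ := FA.KroneckerWeber.exists_inertia_omega_eq (l : ℕ)
      (liesOverPrime_padicPlace (l : ℕ)) (FA.KroneckerWeber.omega (l : ℕ) (loc p (frobL p)))
    obtain ⟨ι, hι, rfl⟩ := exists_loc_inert hσ
    refine ⟨ι, hι, ?_⟩
    show c⁻¹ * auxChar p (l : ℕ) (loc (l : ℕ) ι) = 1
    rw [show auxChar p (l : ℕ) (loc (l : ℕ) ι) = auxChar p (l : ℕ) (loc p (frobL p)) by
      rw [auxChar, auxChar, cycloChar_eq_of_omega hσω]]
    have h := hχloc P (Finset.mem_insert_self P S) (frobL p)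
    have hu : unrChar p (frobL p) = (1 : ZMod p) := unrChar_frobL
    change c⁻¹ * auxChar p (l : ℕ) (loc p (frobL p)) = a P * unrChar p (frobL p) at h
    rw [h, hu, show a P = 1 from if_pos rfl, mul_one]
  set ψ' := D.twist ψ χ hχ with hψ'
  have hψ'lc : LC₁ LQ ψ' := D.twist_lc (lc_of_isOpen ψ hψ) hχ hχlc
  have hopen : IsOpen (ψ'.ker : Set GQ) := isOpen_of_lc _ hψ'lc
  -- the decomposition group at `l`
  have hDl : ∀ τ, ψ (loc (l : ℕ) τ) = 1 := fun τ => by
    obtain ⟨i, η, hη, n, hn, e⟩ := FA.TW.exists_frobenius_decomp l.2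
      (liesOverPrime_padicPlace (l : ℕ)) hφ ψ.ker hψ (σ := loc (l : ℕ) τ)
      (by rw [← range_loc]; exact ⟨τ, rfl⟩)
    obtain ⟨t, ht, rfl⟩ := exists_loc_inert hη
    rw [e, map_mul, map_mul, map_pow, hψφ, one_pow, one_mul, hlu t ht, one_mul,
      MonoidHom.mem_ker.1 hn]
  have hja : ∀ x : ZMod p, ψ' (loc (l : ℕ) (ι₁ ^ x.val)) = D.ja x := fun x => by
    rw [map_pow, map_pow, hψ', D.twist_apply, hlu ι₁ hι₁, hχ1, one_mul, D.ja_pow,
      ZMod.natCast_zmod_val, mul_one]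
  refine ⟨ψ', ⟨hopen, fun e => ?_, fun q => ?_⟩, l, fun q hfq hql ι hι => by
    rw [hψ', D.twist_apply, hχunr q hql ι hι, D.ja_zero, mul_one]
    exact hψu q hfq ι hι⟩
  · obtain ⟨g, hg⟩ := hf.surj (D.π e)
    obtain ⟨x, hx⟩ := D.exists_ja (e := (ψ' g)⁻¹ * e) (by
      rw [map_mul, map_inv, hψ', D.π_twist, hlift, hg, inv_mul_cancel])
    exact ⟨g * loc (l : ℕ) (ι₁ ^ x.val), by rw [map_mul, hja, hx, mul_inv_cancel_left]⟩
  by_cases hql : q = l
  · subst hql
    refine Or.inr ⟨hlN, fun τ => ⟨ι₁ ^ (χ (loc (q : ℕ) τ)).val, pow_mem hι₁ _, ?_⟩⟩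
    rw [hja, hψ', D.twist_apply, hDl, one_mul]
  by_cases hqS : q ∈ S
  · refine Or.inr ⟨hSdvd q hqS, fun τ => ?_⟩
    obtain ⟨ι, hι, he⟩ := ha₀ q hqS
    have hmem := Finset.mem_insert_of_mem (b := P) hqS
    have hloc : ∀ η ∈ inertL (q : ℕ), ψ' (loc (q : ℕ) η) = ψ (loc (q : ℕ) η) := fun η hη => by
      rw [hψ', D.twist_apply, hχunr q hql η hη, D.ja_zero, mul_one]
    refine exists_inertia_eq (f := ψ'.comp (loc (q : ℕ))) (loc_lc ψ' hopen _) ⟨ι, hι, ?_⟩ τ
    show ψ' (loc (q : ℕ) ι) = ψ' (loc (q : ℕ) (frobL (q : ℕ)))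
    rw [hloc ι hι, ← he, hψ', D.twist_apply, hχloc q hmem, unrChar_frobL, mul_one,
      show a q = a₀ q from if_neg (c := q = P) fun h => hPS (h ▸ hqS)]
  · refine Or.inl fun ι hι => ?_
    rw [hψ', D.twist_apply, hχunr q hql ι hι, D.ja_zero, mul_one]
    exact hψu q (by_contra fun h => hqS ((hS q).2 h)) ι hι

/-- Every `p`-group of order `p ^ n`, `n ≤ N`, has an `N`-Scholz realisation with at most `n`
ramified primes. -/
theorem exists_scholz_ram (hp2 : p ≠ 2) {n : ℕ} (hn : n ≤ N) (G : Type) [Group G]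
    (hG : Nat.card G = p ^ n) :
    ∃ f : GQ →* G, IsScholz p N f ∧
      ∃ S : Finset Nat.Primes, S.card ≤ n ∧ ∀ q : Nat.Primes, q ∉ S → UnrAt f (q : ℕ) := by
  classical
  induction n generalizing G with
  | zero =>
    have : Subsingleton G := (Nat.card_eq_one_iff_unique.1 (hG.trans (pow_zero p))).1
    refine ⟨1, ⟨?_, fun g => ⟨1, Subsingleton.elim _ _⟩, fun q => Or.inl fun _ _ => rfl⟩, ∅,
      le_rfl, fun q _ _ _ => rfl⟩
    rw [MonoidHom.ker_one]
    exact isOpen_univ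
  | succ n ih =>
    have : Finite G := Nat.finite_of_card_ne_zero (hG ▸ pow_ne_zero _ hp.out.ne_zero)
    have : Nontrivial G := Finite.one_lt_card_iff_nontrivial.1
      (hG ▸ Nat.one_lt_pow n.succ_ne_zero hp.out.one_lt)
    obtain ⟨H, hH, D, hHc, -⟩ := exists_cExt_quotient (IsPGroup.of_card hG)
    obtain ⟨f, hf, S, hSc, hS⟩ := ih (Nat.le_of_succ_le hn) (G ⧸ H) (by
      have h := H.card_eq_card_quotient_mul_card_subgroup
      rw [hHc, hG, pow_succ] at h
      exact (Nat.eq_of_mul_eq_mul_right hp.out.pos h).symm)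
    obtain ⟨ψ, hψ, l, hl⟩ := exists_scholz_step hp2 D (hG ▸ pow_dvd_pow p hn) hf
    exact ⟨ψ, hψ, insert l S, (Finset.card_insert_le _ _).trans (Nat.succ_le_succ hSc),
      fun q hq => hl q (hS q fun h => hq (Finset.mem_insert_of_mem h))
        fun h => hq (h ▸ Finset.mem_insert_self _ _)⟩

/-- Every `p`-group of order at most `p ^ N` has an `N`-Scholz realisation. -/
theorem exists_scholz (hp2 : p ≠ 2) {n : ℕ} (hn : n ≤ N) (G : Type) [Group G]
    (hG : Nat.card G = p ^ n) : ∃ f : GQ →* G, IsScholz p N f :=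
  let ⟨f, hf, _⟩ := exists_scholz_ram hp2 hn G hG
  ⟨f, hf⟩

end Fermat.Agent.ScholzReichardt
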