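import Fermat.Agent.ScholzReichardt.Main

/-!
# Nilpotent groups of odd order

A finite nilpotent group is the product of its Sylow subgroups, and realisations of groups of
coprime orders give one of their product; all can be unramified at finitely many given primes.
-/

set_option autoImplicit false
set_option linter.unusedSectionVars false

noncomputable section

namespace Fermat.Agent.ScholzReichardt

open Fermat.Agent.SemidirectGalois FA.GalCoh

variable {p : ℕ} [hp : Fact p.Prime]

/-- `p`-groups are realised without ramification at finitely many given primes. -/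
theorem exists_pGroup_avoiding (hp2 : p ≠ 2) (G : Type*) [Group G] [Finite G] (hG : IsPGroup p G)
    (S : Finset Nat.Primes) :
    ∃ ρ : GQ →* G, Function.Surjective ρ ∧ IsOpen (ρ.ker : Set GQ) ∧
      ∀ q ∈ S, UnrAt ρ (q : ℕ) := by
  obtain ⟨n, hn⟩ := IsPGroup.iff_card.1 hG
  let e : Shrink.{0} G ≃* G := Shrink.mulEquiv
  obtain ⟨M, hnM, hSM⟩ : ∃ M : ℕ, n ≤ M ∧ ∀ q ∈ S, (q : ℕ) ≤ M :=
    ⟨max n (S.sup fun q : Nat.Primes => (q : ℕ)), le_max_left _ _, fun q hq =>
      (Finset.le_sup (f := fun q : Nat.Primes => (q : ℕ)) hq).trans (le_max_right _ _)⟩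
  obtain ⟨f, hf⟩ := exists_scholz hp2 hnM (Shrink.{0} G)
    ((Nat.card_congr e.toEquiv).trans hn)
  refine ⟨e.toMonoidHom.comp f, e.surjective.comp hf.surj,
    Subgroup.isOpen_mono (fun σ hσ => MonoidHom.mem_ker.2 (by
      show e (f σ) = 1
      rw [MonoidHom.mem_ker.1 hσ, map_one])) hf.isOpen, fun q hq ι hι => ?_⟩
  show e (f (loc (q : ℕ) ι)) = 1
  rcases hf.ram q with hu | ⟨hdvd, -⟩
  · rw [hu ι hι, map_one]
  · have h1 := hSM q hq
    have h2 := Nat.le_of_dvd (by have := q.2.two_le; omega) hdvd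
    have h3 := Nat.lt_pow_self (n := M) hp.out.one_lt
    omega

/-- Surjections onto groups of pairwise coprime orders give one onto their product. -/
theorem surjective_pi_of_coprime {ι : Type*} [Finite ι] {H : ι → Type*} [∀ i, Group (H i)]
    [∀ i, Finite (H i)] (hcop : Pairwise fun i j => Nat.Coprime (Nat.card (H i)) (Nat.card (H j)))
    {ρ : ∀ i, GQ →* H i} (hρ : ∀ i, Function.Surjective (ρ i)) :
    Function.Surjective (MonoidHom.pi ρ) := by
  classical
  let _ : Fintype ι := Fintype.ofFinite _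
  rw [← MonoidHom.range_eq_top]
  refine Subgroup.eq_top_of_card_eq _ (Nat.dvd_antisymm (Subgroup.card_subgroup_dvd_card _) ?_)
  rw [Nat.card_pi]
  refine Finset.prod_dvd_of_isRelPrime (fun i _ j _ hij => ?_) fun i _ => ?_
  · exact Nat.coprime_iff_isRelPrime.1 (hcop hij)
  · refine Subgroup.card_dvd_of_surjective ((Pi.evalMonoidHom H i).comp
      (MonoidHom.pi ρ).range.subtype) fun x => ?_
    obtain ⟨g, hg⟩ := hρ i x
    exact ⟨⟨MonoidHom.pi ρ g, g, rfl⟩, hg⟩

/-- Nilpotent groups of odd order are realised without ramification at finitely many given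
primes. -/
theorem exists_nilpotent_avoiding (G : Type*) [Group G] [Finite G] [Group.IsNilpotent G]
    (hodd : Odd (Nat.card G)) (S : Finset Nat.Primes) :
    ∃ ρ : GQ →* G, Function.Surjective ρ ∧ IsOpen (ρ.ker : Set GQ) ∧
      ∀ q ∈ S, UnrAt ρ (q : ℕ) := by
  obtain ⟨e⟩ := ((Group.isNilpotent_of_finite_tfae (G := G)).out 0 4 rfl rfl).1 ‹_›
  have hP : ∀ q : (Nat.card G).primeFactors,
      IsPGroup (q : ℕ) (∀ P : Sylow (q : ℕ) G, (P : Subgroup G)) :=
    fun q x => by
      let _ : Fintype (Sylow (q : ℕ) G) := Fintype.ofFinite _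
      choose k hk using fun P : Sylow (q : ℕ) G => P.isPGroup' (x P)
      refine ⟨Finset.univ.sup k, funext fun P => ?_⟩
      show x P ^ _ = 1
      rw [← Nat.add_sub_of_le (Finset.le_sup (f := k) (Finset.mem_univ P)), pow_add, pow_mul, hk,
        one_pow]
  have hprime : ∀ q : (Nat.card G).primeFactors, (q : ℕ).Prime := fun q =>
    Nat.prime_of_mem_primeFactors q.2
  have hex : ∀ q : (Nat.card G).primeFactors,
      ∃ ρ : GQ →* (∀ P : Sylow (q : ℕ) G, (P : Subgroup G)), Function.Surjective ρ ∧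
        IsOpen (ρ.ker : Set GQ) ∧ ∀ l ∈ S, UnrAt ρ (l : ℕ) := fun q => by
    have := Fact.mk (hprime q)
    exact exists_pGroup_avoiding (fun h2 => Nat.not_even_iff_odd.2 hodd
      (even_iff_two_dvd.2 (h2 ▸ Nat.dvd_of_mem_primeFactors q.2))) _ (hP q) S
  choose ρ hρ hopen hunr using hex
  have hsurj : Function.Surjective (MonoidHom.pi ρ) :=
    surjective_pi_of_coprime (fun q q' hne => by
      have := Fact.mk (hprime q)
      have := Fact.mk (hprime q')
      obtain ⟨a, ha⟩ := IsPGroup.iff_card.1 (hP q)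
      obtain ⟨b, hb⟩ := IsPGroup.iff_card.1 (hP q')
      show Nat.Coprime _ _
      rw [ha, hb]
      exact Nat.Coprime.pow _ _ ((Nat.coprime_primes (hprime q) (hprime q')).2
        fun h => hne (Subtype.ext h))) hρ
  have hker : ((MonoidHom.pi ρ).ker : Set GQ) = ⋂ i, ((ρ i).ker : Set GQ) := by
    ext x
    simp [funext_iff]
  refine ⟨e.toMonoidHom.comp (MonoidHom.pi ρ), e.surjective.comp hsurj,
    Subgroup.isOpen_mono (H₁ := (MonoidHom.pi ρ).ker) (fun σ hσ => MonoidHom.mem_ker.2 (by
      show e (MonoidHom.pi ρ σ) = 1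
      rw [MonoidHom.mem_ker.1 hσ, map_one])) (hker ▸ isOpen_iInter_of_finite hopen),
    fun l hl ι hι => ?_⟩
  show e (MonoidHom.pi ρ (loc (l : ℕ) ι)) = 1
  rw [show MonoidHom.pi ρ (loc (l : ℕ) ι) = 1 from funext fun q => hunr q l hl ι hι, map_one]

/-- Nilpotent groups of odd order are realised. -/
theorem realisedOverRat_nilpotent (G : Type*) [Group G] [Finite G] [Group.IsNilpotent G]
    (hodd : Odd (Nat.card G)) : RealisedOverRat G := by
  obtain ⟨ρ, h1, h2, -⟩ := exists_nilpotent_avoiding G hodd ∅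
  exact ⟨ρ, h1, h2⟩

end Fermat.Agent.ScholzReichardt
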